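import Fermat.Agent.Row48.Family

/-!
# S48 from its inputs

Irreducibility: a reducible representation of a finite group has `∑ |tr|² ≥ 2 |G|`, against the
prime bound by the lower bound form of Chebotarev.
-/

set_option autoImplicit false

noncomputable section

namespace Fermat.Agent.Row48

local notation "Ω" => AlgebraicClosure ℚ
local notation "Γℚ" => (AlgebraicClosure ℚ ≃ₐ[ℚ] AlgebraicClosure ℚ)

open scoped Matrix

/-- A two dimensional representation that is not irreducible has a common eigenvector. -/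
theorem exists_eigenline {G : Type} [Group G] (ρ : G →* GL (Fin 2) ℂ)
    (h : ¬ (Deformation.matrixRepresentation ρ).IsIrreducible) :
    ∃ v : Fin 2 → ℂ, v ≠ 0 ∧ ∀ g, ∃ c : ℂ, (ρ g).val *ᵥ v = c • v := by
  classical
  set rep := Deformation.matrixRepresentation ρ
  have : Nontrivial (Subrepresentation rep) := ⟨⟨⊥, ⊤, fun e => by
    have h1 := congrArg Subrepresentation.toSubmodule e
    exact bot_ne_top (α := Submodule ℂ (Fin 2 → ℂ)) h1⟩⟩
  obtain ⟨W, hWb, hWt⟩ : ∃ W : Subrepresentation rep, W ≠ ⊥ ∧ W ≠ ⊤ := by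
    by_contra hne
    refine h ⟨fun W => ?_⟩
    by_contra hW
    simp only [not_or] at hW
    exact hne ⟨W, hW.1, hW.2⟩
  have hb : W.toSubmodule ≠ ⊥ := fun e => hWb (Subrepresentation.toSubmodule_injective e)
  have ht : W.toSubmodule ≠ ⊤ := fun e => hWt (Subrepresentation.toSubmodule_injective e)
  have hdim : Module.finrank ℂ W.toSubmodule = 1 := by
    have h1 := Submodule.finrank_lt ht
    have h2 : 1 ≤ Module.finrank ℂ W.toSubmodule := Submodule.one_le_finrank_iff.mpr hb
    rw [Module.finrank_fin_fun] at h1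
    omega
  obtain ⟨⟨v, hv⟩, hv0, hspan⟩ := finrank_eq_one_iff'.mp hdim
  refine ⟨v, fun e => hv0 (Subtype.ext e), fun g => ?_⟩
  obtain ⟨c, hc⟩ := hspan ⟨rep g v, W.apply_mem_toSubmodule g hv⟩
  refine ⟨c, ?_⟩
  have := congrArg Subtype.val hc
  simpa [rep] using this.symm

/-- Squared absolute values of the traces of a reducible representation of a finite group. -/
theorem two_mul_card_le {G : Type} [Group G] [Fintype G] (ρ : G →* GL (Fin 2) ℂ)
    (h : ¬ (Deformation.matrixRepresentation ρ).IsIrreducible) :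
    2 * (Fintype.card G : ℝ) ≤ ∑ g, ‖(ρ g).val.trace‖ ^ 2 := by
  classical
  obtain ⟨v, hv0, hv⟩ := exists_eigenline ρ h
  choose c hc using hv
  have hinj : ∀ x y : ℂ, x • v = y • v → x = y := fun x y e =>
    smul_left_injective ℂ hv0 e
  let χ : G →* ℂ :=
    { toFun := c
      map_one' := hinj _ _ (by rw [← hc, map_one, Units.val_one, Matrix.one_mulVec, one_smul])
      map_mul' := fun g g' => hinj _ _ (by
        rw [← hc, map_mul, Units.val_mul, ← Matrix.mulVec_mulVec, hc, Matrix.mulVec_smul, hc,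
          smul_smul, mul_comm]) }
  have hnorm : ∀ f : G →* ℂ, ∀ g, ‖f g‖ = 1 := fun f g =>
    (f.isOfFinOrder (isOfFinOrder_of_finite g)).norm_eq_one
  have hchar : ∀ g, χ g * χ g - (ρ g).val.trace * χ g + (ρ g).val.det = 0 := fun g => by
    have hz : ((ρ g).val - c g • 1).det = 0 := Matrix.exists_mulVec_eq_zero_iff.mp
      ⟨v, hv0, by rw [Matrix.sub_mulVec, Matrix.smul_mulVec, Matrix.one_mulVec, hc, sub_self]⟩
    simp only [Matrix.det_fin_two, Matrix.trace_fin_two, Matrix.sub_apply, Matrix.smul_apply,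
      Matrix.one_apply, Fin.isValue, ↓reduceIte, zero_ne_one, one_ne_zero, smul_eq_mul] at hz ⊢
    show c g * c g - _ * c g + _ = 0
    linear_combination hz
  have hne : ∀ g, χ g ≠ 0 := fun g e => by simpa [e] using hnorm χ g
  let d : G →* ℂ := (Units.coeHom ℂ).comp ((Matrix.GeneralLinearGroup.det).comp ρ)
  let ψ : G →* ℂ :=
    { toFun := fun g => d g * (χ g)⁻¹ * (χ g)⁻¹
      map_one' := by simp
      map_mul' := fun g g' => by simp only [map_mul, mul_inv]; ring }
  have htr : ∀ g, (ρ g).val.trace = χ g * (1 + ψ g) := fun g => by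
    have h0 := hne g
    show _ = χ g * (1 + d g * (χ g)⁻¹ * (χ g)⁻¹)
    have : d g = (ρ g).val.det := rfl
    rw [this]
    field_simp
    linear_combination (-1 : ℂ) * hchar g
  have hsq : ∀ g, ‖(ρ g).val.trace‖ ^ 2 = 2 + 2 * (ψ g).re := fun g => by
    rw [htr, norm_mul, hnorm χ, one_mul]
    have h1 : Complex.normSq (ψ g) = 1 := by rw [Complex.normSq_eq_norm_sq, hnorm ψ, one_pow]
    rw [← Complex.normSq_eq_norm_sq, Complex.normSq_add, h1]
    simp
    ring
  simp only [hsq, Finset.sum_add_distrib, ← Finset.mul_sum, Finset.sum_const, Finset.card_univ,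
    nsmul_eq_mul]
  have h0 : (0 : ℝ) ≤ ∑ g, (ψ g).re := by
    rw [← Complex.re_sum, sum_hom_units ψ]
    split_ifs <;> simp
  linarith

/-- The prime bound for the values themselves. -/
theorem primeBound_of_coefficients {N : ℕ} {ε : DirichletCharacter ℂ N} {a : ℕ → ℂ}
    (h : Coefficients N ε a) : PrimeBound N a := by
  obtain ⟨K, -, hK, hσ⟩ := h.exists_field
  obtain ⟨b, hb, hba⟩ := hσ K.val.toRingHom
  intro M
  obtain ⟨C, hC⟩ := hb M
  refine ⟨C, fun s hs => le_of_eq_of_le (tsum_congr fun p => ?_) (hC s hs)⟩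
  by_cases hp : ¬ (p : ℕ) ∣ N
  · rw [Set.indicator_of_mem (s := {q : Nat.Primes | ¬ (q : ℕ) ∣ N}) hp,
      Set.indicator_of_mem (s := {q : Nat.Primes | ¬ (q : ℕ) ∣ N}) hp,
      hba p p.2 hp ⟨a p, (hK p p.2 hp).1⟩ rfl]
    rfl
  · rw [Set.indicator_of_notMem (s := {q : Nat.Primes | ¬ (q : ℕ) ∣ N}) hp,
      Set.indicator_of_notMem (s := {q : Nat.Primes | ¬ (q : ℕ) ∣ N}) hp]

/-- Irreducibility from the prime bound. -/
theorem isIrreducible_of_primeBound {N : ℕ} [NeZero N] {a : ℕ → ℂ} (hD : DensityLower)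
    (hP : PrimeBound N a) (r : Γℚ →* GL (Fin 2) ℂ) (hr : GaloisFactorsThroughFiniteLevel r)
    (hfin : (Set.range r).Finite)
    (htr : ∀ p : ℕ, p.Prime → ¬ p ∣ N → ∀ P : ValuationSubring Ω, P.LiesOverPrime p →
      ∀ σ : Γℚ, P.IsFrobeniusAt σ p → (r σ).val.trace = a p) :
    (Deformation.matrixRepresentation r).IsIrreducible := by
  classical
  by_contra hirr
  let G := r.range
  have : Finite G := hfin.to_subtype
  let : Fintype G := Fintype.ofFinite G
  let π : Γℚ →* G := r.rangeRestrict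
  have hπ : Function.Surjective π := r.rangeRestrict_surjective
  have hπfin : GaloisFactorsThroughFiniteLevel π := by
    obtain ⟨L, hL, h⟩ := hr
    exact ⟨L, hL, fun σ hσ => Subtype.ext (h σ hσ)⟩
  let ι : G →* GL (Fin 2) ℂ := G.subtype
  have hι : ¬ (Deformation.matrixRepresentation ι).IsIrreducible := fun hI => hirr (by
    have hmem : ∀ (W : Subrepresentation (Deformation.matrixRepresentation r)) (g : G)
        ⦃v : Fin 2 → ℂ⦄, v ∈ W.toSubmodule →
          Deformation.matrixRepresentation ι g v ∈ W.toSubmodule := fun W g v hv => by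
      obtain ⟨σ, rfl⟩ := hπ g
      exact W.apply_mem_toSubmodule σ hv
    have : Nontrivial (Subrepresentation (Deformation.matrixRepresentation r)) :=
      ⟨⟨⊥, ⊤, fun e => bot_ne_top (α := Submodule ℂ (Fin 2 → ℂ))
        (congrArg Subrepresentation.toSubmodule e)⟩⟩
    refine ⟨fun W => ?_⟩
    rcases hI.eq_bot_or_eq_top ⟨W.toSubmodule, hmem W⟩ with e | e
    · exact Or.inl (Subrepresentation.toSubmodule_injective
        (congrArg Subrepresentation.toSubmodule e :))
    · exact Or.inr (Subrepresentation.toSubmodule_injective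
        (congrArg Subrepresentation.toSubmodule e :)))
  let t : G → ℂ := fun g => (ι g).val.trace
  let V : Finset ℂ := Finset.univ.image t
  let w : ℂ → ℝ := fun v => ‖v‖ ^ 2
  let T : ℂ → Set G := fun v => {g | t g = v}
  have hT : ∀ v, ∀ g h : G, h ∈ T v → g * h * g⁻¹ ∈ T v := fun v g h hh => by
    show (ι (g * h * g⁻¹)).val.trace = v
    rw [map_mul, map_mul, Units.val_mul, Units.val_mul, Matrix.trace_mul_cycle, ← Units.val_mul,
      map_inv, inv_mul_cancel, Units.val_one, one_mul]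
    exact hh
  set S₀ : Finset ℕ := N.primeFactors
  set M : ℝ := ∑ v ∈ V, w v
  have hM0 : 0 ≤ M := Finset.sum_nonneg fun v _ => by positivity
  set η : ℝ := 1 / (2 * (M + 1))
  have hη : 0 < η := by positivity
  choose C hC using fun v => hD G π hπ hπfin (T v) S₀ (hT v) η hη
  obtain ⟨C₀, hC₀⟩ := hP M
  have hsum : ∀ s ∈ Set.Ioc (1 : ℝ) 2,
      ∑ v ∈ V, w v * (((Nat.card (T v) : ℝ) / Nat.card G - η) * poleLog s - C v) ≤
        poleLog s + C₀ := by
    intro s hs
    refine le_trans ?_ (hC₀ s hs)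
    have hsumm : Summable fun p : Nat.Primes => ((p : ℕ) : ℝ) ^ (-s) :=
      Nat.Primes.summable_rpow.mpr (by linarith [hs.1])
    let F : ℂ → Nat.Primes → ℝ := fun v p =>
      w v * Set.indicator {q : Nat.Primes | (q : ℕ) ∉ S₀ ∧ ∃ P : ValuationSubring Ω,
        P.LiesOverPrime (q : ℕ) ∧ ∃ σ : Γℚ, P.IsFrobeniusAt σ (q : ℕ) ∧ π σ ∈ T v}
        (fun q => ((q : ℕ) : ℝ) ^ (-s)) p
    have hind : ∀ (A : Set Nat.Primes) (p : Nat.Primes),
        0 ≤ Set.indicator A (fun q : Nat.Primes => ((q : ℕ) : ℝ) ^ (-s)) p := fun A p =>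
      Set.indicator_nonneg (fun q _ => Real.rpow_nonneg (Nat.cast_nonneg _) _) p
    have hFs : ∀ v, Summable (F v) := fun v => (Summable.indicator hsumm _).mul_left _
    have hG : Summable fun p : Nat.Primes => Set.indicator {q : Nat.Primes | ¬ (q : ℕ) ∣ N}
        (fun q ↦ min (‖a q‖ ^ 2) M * ((q : ℕ) : ℝ) ^ (-s)) p := by
      refine (hsumm.mul_left M).of_nonneg_of_le (fun p => Set.indicator_nonneg (fun q _ => ?_) p)
        fun p => ?_
      · exact mul_nonneg (le_min (by positivity) hM0) (Real.rpow_nonneg (Nat.cast_nonneg _) _)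
      · by_cases hp : p ∈ {q : Nat.Primes | ¬ (q : ℕ) ∣ N}
        · rw [Set.indicator_of_mem hp]
          exact mul_le_mul_of_nonneg_right (min_le_right _ _)
            (Real.rpow_nonneg (Nat.cast_nonneg _) _)
        · rw [Set.indicator_of_notMem hp]
          exact mul_nonneg hM0 (Real.rpow_nonneg (Nat.cast_nonneg _) _)
    calc ∑ v ∈ V, w v * (((Nat.card (T v) : ℝ) / Nat.card G - η) * poleLog s - C v)
        ≤ ∑ v ∈ V, w v * primeWeight (fun p ↦ p ∉ S₀ ∧ ∃ P : ValuationSubring Ω,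
            P.LiesOverPrime p ∧ ∃ σ : Γℚ, P.IsFrobeniusAt σ p ∧ π σ ∈ T v) s :=
          Finset.sum_le_sum fun v _ => mul_le_mul_of_nonneg_left (hC v s hs) (by positivity)
      _ = ∑ v ∈ V, ∑' p, F v p := by
          simp only [primeWeight, F, tsum_mul_left]
      _ = ∑' p, ∑ v ∈ V, F v p := (Summable.tsum_finsetSum fun v _ => hFs v).symm
      _ ≤ _ := Summable.tsum_le_tsum (fun p => ?_) (summable_sum fun v _ => hFs v) hG
    have hval : ∀ v, F v p ≠ 0 → ¬ (p : ℕ) ∣ N ∧ v = a p := fun v hv => by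
      have hm := Set.mem_of_indicator_ne_zero (mul_ne_zero_iff.mp hv).2
      obtain ⟨hpS, P, hP', σ, hσ, hσT⟩ := hm
      have hpN : ¬ (p : ℕ) ∣ N := fun hd => hpS (Nat.mem_primeFactors.mpr ⟨p.2, hd, NeZero.ne N⟩)
      exact ⟨hpN, hσT.symm.trans (htr p p.2 hpN P hP' σ hσ)⟩
    by_cases h0 : ∀ v ∈ V, F v p = 0
    · rw [Finset.sum_eq_zero h0]
      exact Set.indicator_nonneg (fun q _ =>
        mul_nonneg (le_min (by positivity) hM0) (Real.rpow_nonneg (Nat.cast_nonneg _) _)) p
    · obtain ⟨v, hvV, hv⟩ : ∃ v ∈ V, F v p ≠ 0 := by simpa using h0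
      obtain ⟨hpN, hva⟩ := hval v hv
      rw [Finset.sum_eq_single v (fun u _ hu => by_contra fun hu0 =>
        hu ((hval u hu0).2.trans hva.symm)) (fun h => absurd hvV h),
        Set.indicator_of_mem (s := {q : Nat.Primes | ¬ (q : ℕ) ∣ N}) hpN,
        min_eq_left (hva ▸ Finset.single_le_sum (f := w) (fun x _ => by positivity) hvV), ← hva]
      refine mul_le_mul_of_nonneg_left ?_ (by positivity)
      exact Set.indicator_apply_le' (fun _ => le_rfl)
        (fun _ => Real.rpow_nonneg (Nat.cast_nonneg _) _)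
  have hcard : (2 : ℝ) ≤ ∑ v ∈ V, w v * ((Nat.card (T v) : ℝ) / Nat.card G) := by
    have h2 := two_mul_card_le ι hι
    have hsplit : ∑ g, ‖t g‖ ^ 2 = ∑ v ∈ V, w v * (Nat.card (T v) : ℝ) := by
      rw [← Finset.sum_fiberwise_of_maps_to (g := t) (t := V)
        (fun g _ => Finset.mem_image_of_mem t (Finset.mem_univ g))]
      refine Finset.sum_congr rfl fun v _ => ?_
      rw [Finset.sum_congr rfl (g := fun _ => w v) (fun g hg => by
        rw [(Finset.mem_filter.mp hg).2]), Finset.sum_const, nsmul_eq_mul, mul_comm]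
      congr 1
      rw [Nat.card_eq_fintype_card, Fintype.card_subtype]
      rfl
    rw [Finset.sum_congr rfl fun v _ => (mul_div_assoc (w v) (Nat.card (T v) : ℝ) _).symm,
      ← Finset.sum_div, le_div_iff₀ (by exact_mod_cast Nat.card_pos), ← hsplit,
      Nat.card_eq_fintype_card]
    exact h2
  -- let `s` tend to `1`
  set K₁ : ℝ := ∑ v ∈ V, w v * C v
  have hkey : ∀ s ∈ Set.Ioc (1 : ℝ) 2, poleLog s * (1 / 2) ≤ C₀ + K₁ := fun s hs => by
    have h := hsum s hs
    have e : ∑ v ∈ V, w v * (((Nat.card (T v) : ℝ) / Nat.card G - η) * poleLog s - C v) =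
        (∑ v ∈ V, w v * ((Nat.card (T v) : ℝ) / Nat.card G) - η * M) * poleLog s - K₁ := by
      simp only [K₁, M, Finset.mul_sum, sub_mul, Finset.sum_mul, ← Finset.sum_sub_distrib]
      exact Finset.sum_congr rfl fun v _ => by ring
    rw [e] at h
    have hp : 0 ≤ poleLog s := Real.log_nonneg ((one_le_inv₀ (by linarith [hs.1])).mpr
      (by linarith [hs.2]))
    have hηM : η * M ≤ 1 / 2 := by
      rw [div_mul_eq_mul_div, div_le_iff₀ (by positivity)]
      linarith
    nlinarith [mul_le_mul_of_nonneg_right (show (3 / 2 : ℝ) ≤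
      ∑ v ∈ V, w v * ((Nat.card (T v) : ℝ) / Nat.card G) - η * M by linarith) hp]
  obtain ⟨L, hL0, hL⟩ : ∃ L : ℝ, 0 ≤ L ∧ 2 * (C₀ + K₁) < L :=
    ⟨|2 * (C₀ + K₁)| + 1, by positivity, by linarith [le_abs_self (2 * (C₀ + K₁))]⟩
  have hs : 1 + Real.exp (-L) ∈ Set.Ioc (1 : ℝ) 2 :=
    ⟨by linarith [Real.exp_pos (-L)], by linarith [Real.exp_le_one_iff.mpr (neg_nonpos.mpr hL0)]⟩
  have h := hkey _ hs
  rw [poleLog, add_sub_cancel_left, Real.log_inv, Real.log_exp] at h
  linarith

/-- **S48 from its inputs.** -/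
theorem exists_galoisRep_of_inputs {N : ℕ} [NeZero N] (ε : DirichletCharacter ℂ N) (a : ℕ → ℂ)
    (hC : Coefficients N ε a) (hR : ResidualReps N ε a) (hB : BoundedImages N ε a)
    (hD : DensityLower) :
    ∃ ρ : Γℚ →* GL (Fin 2) ℂ, GaloisFactorsThroughFiniteLevel ρ ∧
      (Deformation.matrixRepresentation ρ).IsIrreducible ∧
      ∀ p : ℕ, p.Prime → ¬ p ∣ N → ∀ A : ValuationSubring Ω, A.LiesOverPrime p →
        (∀ σ ∈ A.inertiaSubgroupIn ℚ, ρ σ = 1) ∧
        ∀ σ : Γℚ, A.IsFrobeniusAt σ p →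
          (ρ σ).val.trace = a p ∧ (ρ σ).val.det = ε (p : ZMod N) := by
  obtain ⟨r, h1, h2, h3⟩ := exists_galoisRep_of_residualReps ε a hC.isIntegral hR hB
  exact ⟨r, h1, isIrreducible_of_primeBound hD (primeBound_of_coefficients hC) r h1 h2
    (fun p hp hpN P hP σ hσ => ((h3 p hp hpN P hP).2 σ hσ).1), h3⟩

end Fermat.Agent.Row48

end
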