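import Fermat.Agent.Row48.Lift
import Fermat.Agent.Chebotarev.Main
import Fermat.Prelude.Def_GaloisRep_Residual

/-!
# Galois representations to `GL₂(ℂ)` from residual ones with bounded image

`exists_galoisRep_of_bounded_residual`: congruences of a family of values `(a p, e p)` in a
subring `R` of `ℂ` with residual representations of bounded image, over a family of reductions
that stays jointly injective without the residue characteristic `p`, give a representation to
`GL₂(ℂ)` of finite level with exactly these traces and determinants.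
-/

set_option autoImplicit false

noncomputable section

namespace Fermat.Agent.Row48

open MvPolynomial
open scoped Matrix

local notation "Ω" => AlgebraicClosure ℚ
local notation "Γℚ" => (AlgebraicClosure ℚ ≃ₐ[ℚ] AlgebraicClosure ℚ)

/-- A root of the characteristic polynomial of a matrix of exponent `n` is an `n`-th root of one. -/
theorem pow_eq_one_of_charpoly_root {F : Type*} [Field F] {g : Matrix (Fin 2) (Fin 2) F} {n : ℕ}
    (hg : g ^ n = 1) {x : F} (hx : x * x - g.trace * x + g.det = 0) : x ^ n = 1 := by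
  have hdet : (Matrix.scalar (Fin 2) x - g).det = 0 := by
    simp only [Matrix.det_fin_two, Matrix.trace_fin_two, Matrix.sub_apply, Matrix.scalar_apply,
      Matrix.diagonal_apply, Fin.isValue, ↓reduceIte, zero_ne_one, one_ne_zero] at hx ⊢
    linear_combination hx
  obtain ⟨v, hv0, hv⟩ := Matrix.exists_mulVec_eq_zero_iff.mpr hdet
  have h1 : g *ᵥ v = x • v := by
    rw [Matrix.sub_mulVec, sub_eq_zero] at hv
    rw [← hv, Matrix.scalar_apply, ← Matrix.smul_one_eq_diagonal, Matrix.smul_mulVec,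
      Matrix.one_mulVec]
  have h2 : ∀ m : ℕ, g ^ m *ᵥ v = x ^ m • v := fun m => by
    induction m with
    | zero => simp
    | succ m ih => rw [pow_succ, ← Matrix.mulVec_mulVec, h1, Matrix.mulVec_smul, ih, smul_smul,
        pow_succ']
  have h3 := h2 n
  rw [hg, Matrix.one_mulVec] at h3
  by_contra hne
  refine hv0 ?_
  have h4 : (x ^ n - 1) • v = 0 := by rw [sub_smul, one_smul, ← h3, sub_self]
  exact (smul_eq_zero.mp h4).resolve_left (sub_ne_zero.mpr hne)

/-- A unipotent matrix whose order is invertible is trivial. -/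
theorem eq_one_of_trace_det {F : Type*} [Field F] {g : GL (Fin 2) F} {n : ℕ}
    (ht : g.val.trace = 2) (hd : g.val.det = 1) (hg : g ^ n = 1) (hn : (n : F) ≠ 0) : g = 1 := by
  set N : Matrix (Fin 2) (Fin 2) F := g.val - 1 with hN
  have hN2 : N * N = 0 := by
    rw [Matrix.trace_fin_two] at ht
    rw [Matrix.det_fin_two] at hd
    ext i j
    fin_cases i <;> fin_cases j <;>
      simp [N, Matrix.mul_apply, Fin.sum_univ_two] <;> grind
  have h : ∀ m : ℕ, (g ^ m).val = 1 + (m : F) • N := fun m => by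
    induction m with
    | zero => simp
    | succ m ih =>
      rw [pow_succ, Units.val_mul, ih, Nat.cast_succ, add_smul, one_smul,
        show g.val = 1 + N by simp [N]]
      rw [add_mul, one_mul, mul_add, mul_one, Matrix.smul_mul, hN2, smul_zero, add_zero]
      abel
  have h1 := h n
  rw [hg, Units.val_one, left_eq_add, smul_eq_zero] at h1
  exact Units.ext (sub_eq_zero.mp (h1.resolve_left hn))

variable {ι : Type} (k : ι → Type) [∀ i, Field (k i)] (ρ : ∀ i, Γℚ →* GL (Fin 2) (k i))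

/-- Every Galois element agrees on two given finite levels with a Frobenius element away from a
finite set. -/
theorem exists_frobenius_agree {i j : ι} (hi : GaloisFactorsThroughFiniteLevel (ρ i))
    (hj : GaloisFactorsThroughFiniteLevel (ρ j)) (σ : Γℚ) (S : Finset ℕ) :
    ∃ p : ℕ, p.Prime ∧ p ∉ S ∧ ∃ A : ValuationSubring Ω, A.LiesOverPrime p ∧
      ∃ τ : Γℚ, A.IsFrobeniusAt τ p ∧ ρ i τ = ρ i σ ∧ ρ j τ = ρ j σ := by
  obtain ⟨Li, _, hLi⟩ := hi
  obtain ⟨Lj, _, hLj⟩ := hj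
  obtain ⟨p, hp, hpS, A, hA, τ, hτ, hL⟩ :=
    Chebotarev.exists_isFrobeniusAt_eqOn (Li ⊔ Lj) σ S
  refine ⟨p, hp, hpS, A, hA, τ, hτ, ?_, ?_⟩
  · rw [← inv_mul_eq_one, ← map_inv, ← map_mul]
    exact hLi _ fun x hx => (τ.symm_apply_eq).mpr (hL x (le_sup_left (b := Lj) hx)).symm
  · rw [← inv_mul_eq_one, ← map_inv, ← map_mul]
    exact hLj _ fun x hx => (τ.symm_apply_eq).mpr (hL x (le_sup_right (a := Li) hx)).symm

variable {k ρ}

/-- **The characteristic zero lift.** -/
theorem exists_galoisRep_of_bounded_residual {N : ℕ} (hN : N ≠ 0) (R : Subring ℂ) (a e : ℕ → R)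
    (ℓ : ι → ℕ) (φ : ∀ i, R →+* k i)
    (hinj : ∀ p : ℕ, ∀ r : R, (∀ i, ℓ i ≠ p → φ i r = 0) → r = 0)
    (M : ℕ) (hM : ∀ i (n : ℕ), 0 < n → n ≤ M → (n : k i) ≠ 0)
    (hfin : ∀ i, GaloisFactorsThroughFiniteLevel (ρ i))
    (hcard : ∀ i, (ρ i).range.carrier.Finite ∧ Nat.card (ρ i).range ≤ M)
    (hunr : ∀ i (p : ℕ), p.Prime → ¬ p ∣ N → p ≠ ℓ i → ∀ A : ValuationSubring Ω,
      A.LiesOverPrime p → ∀ σ ∈ A.inertiaSubgroupIn ℚ, ρ i σ = 1)
    (htr : ∀ i (p : ℕ), p.Prime → ¬ p ∣ N → p ≠ ℓ i → ∀ A : ValuationSubring Ω,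
      A.LiesOverPrime p → ∀ σ : Γℚ, A.IsFrobeniusAt σ p →
        (ρ i σ).val.trace = φ i (a p) ∧ (ρ i σ).val.det = φ i (e p)) :
    ∃ r : Γℚ →* GL (Fin 2) ℂ, GaloisFactorsThroughFiniteLevel r ∧ (Set.range r).Finite ∧
      ∀ p : ℕ, p.Prime → ¬ p ∣ N → ∀ A : ValuationSubring Ω, A.LiesOverPrime p →
        (∀ σ ∈ A.inertiaSubgroupIn ℚ, r σ = 1) ∧
        ∀ σ : Γℚ, A.IsFrobeniusAt σ p →
          (r σ).val.trace = (a p : ℂ) ∧ (r σ).val.det = (e p : ℂ) := by
  classical
  have : ∀ i, Finite (ρ i).range := fun i => (hcard i).1.to_subtype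
  set n := M.factorial with hn
  have hpow : ∀ i σ, (ρ i σ) ^ n = 1 := fun i σ => by
    have h := pow_card_eq_one' (x := (⟨ρ i σ, σ, rfl⟩ : (ρ i).range))
    obtain ⟨c, hc⟩ : Nat.card (ρ i).range ∣ n :=
      Nat.dvd_factorial Nat.card_pos (hcard i).2
    rw [Subtype.ext_iff] at h
    simp only [SubgroupClass.coe_pow, OneMemClass.coe_one] at h
    rw [hc, pow_mul, h, one_pow]
  let U : Finset ℂ := (Polynomial.nthRoots n (1 : ℂ)).toFinset
  have hU : ∀ x : ℂ, x ^ n = 1 → x ∈ U := fun x hx =>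
    Multiset.mem_toFinset.mpr ((Polynomial.mem_nthRoots (Nat.factorial_pos M)).mpr hx)
  let T : Finset ℂ := ((U ×ˢ U).image fun x => x.1 + x.2) ∪
    ((U ×ˢ U).image fun x => x.1 * x.2) ∪ {1, 2}
  -- the values are sums and products of two roots of unity
  have hval : ∀ p : ℕ, p.Prime → ¬ p ∣ N → (a p : ℂ) ∈ T ∧ (e p : ℂ) ∈ T := by
    intro p hp hpN
    let I := {i : ι // ℓ i ≠ p}
    let S : Set (MvPolynomial (Fin 2) R) :=
      {X 0 ^ n - 1, X 1 ^ n - 1, X 0 + X 1 - C (a p), X 0 * X 1 - C (e p)}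
    obtain ⟨x, hx⟩ := exists_complex_zero_of_reductions R S
      (fun i : I => AlgebraicClosure (k i.1))
      (fun i => (algebraMap _ (AlgebraicClosure (k i.1))).comp (φ i.1))
      (fun r hr => hinj p r fun i hi =>
        (algebraMap (k i) (AlgebraicClosure (k i))).injective
          ((hr ⟨i, hi⟩).trans (map_zero _).symm)) (fun ⟨i, hi⟩ => by
        obtain ⟨A, σ, hA, hσ⟩ := Frobenius.exists_liesOverPrime_and_isFrobeniusAt_qbar hp
        let f := algebraMap (k i) (AlgebraicClosure (k i))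
        let g : Matrix (Fin 2) (Fin 2) (AlgebraicClosure (k i)) := f.mapMatrix (ρ i σ).val
        obtain ⟨htg, hdg⟩ := htr i p hp hpN (Ne.symm hi) A hA σ hσ
        have hgn : g ^ n = 1 := by
          rw [← map_pow, ← Units.val_pow_eq_pow_val, hpow, Units.val_one, map_one]
        have hgt : g.trace = f (φ i (a p)) := by
          rw [← htg, AddMonoidHom.map_trace]; rfl
        have hgd : g.det = f (φ i (e p)) := by rw [← hdg, RingHom.map_det]
        obtain ⟨x, hx⟩ := IsAlgClosed.exists_root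
          (Polynomial.X * Polynomial.X - Polynomial.C g.trace * Polynomial.X +
            Polynomial.C g.det) (by
          intro h0
          have : (Polynomial.X * Polynomial.X - Polynomial.C g.trace * Polynomial.X +
            Polynomial.C g.det).natDegree = 2 := by compute_degree!
          rw [Polynomial.natDegree_eq_zero_iff_degree_le_zero.mpr h0.le] at this
          omega)
        simp only [Polynomial.IsRoot.def, Polynomial.eval_add, Polynomial.eval_sub,
          Polynomial.eval_mul, Polynomial.eval_X, Polynomial.eval_C] at hx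
        refine ⟨![x, g.trace - x], fun P hP => ?_⟩
        simp only [S, Set.mem_insert_iff, Set.mem_singleton_iff] at hP
        rcases hP with rfl | rfl | rfl | rfl <;>
          simp only [eval₂_sub, eval₂_pow, eval₂_X, eval₂_one, eval₂_add, eval₂_mul, eval₂_C,
            Matrix.cons_val_zero, Matrix.cons_val_one, RingHom.comp_apply]
        · rw [pow_eq_one_of_charpoly_root hgn hx, sub_self]
        · rw [pow_eq_one_of_charpoly_root hgn (x := g.trace - x) (by linear_combination hx),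
            sub_self]
        · rw [← hgt]; ring
        · rw [← hgd]; linear_combination (-1 : AlgebraicClosure (k i)) * hx)
    have e0 := hx _ (Set.mem_insert _ _)
    have e1 := hx _ (Set.mem_insert_of_mem _ (Set.mem_insert _ _))
    have e2 := hx _ (Set.mem_insert_of_mem _ (Set.mem_insert_of_mem _ (Set.mem_insert _ _)))
    have e3 := hx _ (Set.mem_insert_of_mem _ (Set.mem_insert_of_mem _
      (Set.mem_insert_of_mem _ (Set.mem_singleton _))))
    simp only [eval₂_sub, eval₂_pow, eval₂_X, eval₂_one, eval₂_add, eval₂_mul, eval₂_C,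
      sub_eq_zero, Subring.subtype_apply] at e0 e1 e2 e3
    have hm : (x 0, x 1) ∈ U ×ˢ U := Finset.mem_product.mpr ⟨hU _ e0, hU _ e1⟩
    exact ⟨Finset.mem_union_left _ (Finset.mem_union_left _
        (Finset.mem_image.mpr ⟨_, hm, e2⟩)),
      Finset.mem_union_left _ (Finset.mem_union_right _ (Finset.mem_image.mpr ⟨_, hm, e3⟩))⟩
  -- reductions injective on the possible values
  let F : Finset R := T.preimage (fun r : R => (r : ℂ)) Subtype.val_injective.injOn
  have hF : ∀ r : R, (r : ℂ) ∈ T → r ∈ F := fun r hr => Finset.mem_preimage.mpr hr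
  let Dp : R := ∏ x ∈ (F ×ˢ F).filter (fun x => x.1 ≠ x.2), (x.1 - x.2)
  have hDp : Dp ≠ 0 := Finset.prod_ne_zero_iff.mpr fun x hx =>
    sub_ne_zero.mpr (Finset.mem_filter.mp hx).2
  have hsep : ∀ i, φ i Dp ≠ 0 → ∀ x ∈ F, ∀ y ∈ F, φ i x = φ i y → x = y := by
    intro i hi x hx y hy hxy
    by_contra hne
    refine hi ?_
    rw [map_prod]
    exact Finset.prod_eq_zero
      (Finset.mem_filter.mpr ⟨Finset.mem_product.mpr ⟨hx, hy⟩, hne⟩ : (x, y) ∈ _)
      (by rw [map_sub, hxy, sub_self])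
  have hgood : ∀ p : ℕ, ∀ r : R, (∀ i, φ i Dp ≠ 0 → ℓ i ≠ p → φ i r = 0) → r = 0 := by
    intro p r hr
    have h := hinj p (r * Dp) fun i hi => by
      rw [map_mul]
      rcases eq_or_ne (φ i Dp) 0 with h0 | h0
      · rw [h0, mul_zero]
      · rw [hr i h0 hi, zero_mul]
    exact (mul_eq_zero.mp h).resolve_right hDp
  have hone : (1 : R) ∈ F := hF _ (Finset.mem_union_right _ (by simp))
  have htwo : (2 : R) ∈ F :=
    hF _ (Finset.mem_union_right _ (by simp [show ((2 : R) : ℂ) = 2 from rfl]))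
  -- kernels agree
  have hker : ∀ i j, φ i Dp ≠ 0 → ∀ σ, ρ i σ = 1 → ρ j σ = 1 := by
    intro i j hi σ hσ
    obtain ⟨p, hp, hpS, A, hA, τ, hτ, eτi, eτj⟩ :=
      exists_frobenius_agree k ρ (hfin i) (hfin j) σ (N.primeFactors ∪ {ℓ i, ℓ j})
    simp only [Finset.mem_union, Finset.mem_insert, Finset.mem_singleton, not_or] at hpS
    have hpN : ¬ p ∣ N := fun h => hpS.1 (Nat.mem_primeFactors.mpr ⟨hp, h, hN⟩)
    obtain ⟨ha, he⟩ := hval p hp hpN
    obtain ⟨t1, d1⟩ := htr i p hp hpN hpS.2.1 A hA τ hτ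
    obtain ⟨t2, d2⟩ := htr j p hp hpN hpS.2.2 A hA τ hτ
    rw [eτi, hσ] at t1 d1
    have ea : a p = 2 := hsep i hi _ (hF _ ha) _ htwo (by
      rw [← t1, map_ofNat, Units.val_one, Matrix.trace_one, Fintype.card_fin, Nat.cast_ofNat])
    have ee : e p = 1 := hsep i hi _ (hF _ he) _ hone (by
      rw [← d1, map_one, Units.val_one, Matrix.det_one])
    rw [ea, map_ofNat] at t2
    rw [ee, map_one] at d2
    rw [← eτj]
    refine eq_one_of_trace_det t2 d2 (n := orderOf (ρ j τ)) (pow_orderOf_eq_one _) (hM j _ ?_ ?_)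
    · exact orderOf_pos_iff.mpr (isOfFinOrder_iff_pow_eq_one.mpr ⟨n, Nat.factorial_pos M, hpow j τ⟩)
    · refine le_trans ?_ (hcard j).2
      exact (Subgroup.orderOf_coe (⟨ρ j τ, τ, rfl⟩ : (ρ j).range)).trans_le orderOf_le_card
  obtain ⟨i₀, hi₀⟩ : ∃ i, φ i Dp ≠ 0 := by
    by_contra h
    exact one_ne_zero (hgood 0 1 fun i hi _ => absurd ⟨i, hi⟩ h)
  -- the finite group and the traces on it
  let G := Γℚ ⧸ (ρ i₀).ker
  have : Finite G := Finite.of_equiv _ (QuotientGroup.quotientKerEquivRange (ρ i₀)).symm.toEquiv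
  choose P hP hPS A hA τ hτ hτ₀ _ using fun g : G =>
    exists_frobenius_agree k ρ (hfin i₀) (hfin i₀) g.out (N.primeFactors ∪ {ℓ i₀})
  simp only [Finset.mem_union, Finset.mem_singleton, not_or] at hPS
  have hPN : ∀ g, ¬ P g ∣ N := fun g h => (hPS g).1 (Nat.mem_primeFactors.mpr ⟨hP g, h, hN⟩)
  have hmk : ∀ σ : Γℚ, ρ i₀ (τ (QuotientGroup.mk σ : G)) = ρ i₀ σ := fun σ => by
    rw [hτ₀]
    obtain ⟨h, hh⟩ := QuotientGroup.mk_out_eq_mul (ρ i₀).ker σ
    rw [hh, map_mul, MonoidHom.mem_ker.mp h.2, mul_one]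
  have hall : ∀ i, φ i Dp ≠ 0 → ∀ σ : Γℚ,
      (ρ i σ).val.trace = φ i (a (P (QuotientGroup.mk σ : G))) ∧
        (ρ i σ).val.det = φ i (e (P (QuotientGroup.mk σ : G))) := by
    intro i hi σ
    set g : G := QuotientGroup.mk σ
    obtain ⟨p, hp, hpS, B, hB, υ, hυ, eυ₀, eυ⟩ :=
      exists_frobenius_agree k ρ (hfin i₀) (hfin i) σ (N.primeFactors ∪ {ℓ i₀, ℓ i})
    simp only [Finset.mem_union, Finset.mem_insert, Finset.mem_singleton, not_or] at hpS
    have hpN : ¬ p ∣ N := fun h => hpS.1 (Nat.mem_primeFactors.mpr ⟨hp, h, hN⟩)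
    obtain ⟨t0, d0⟩ := htr i₀ p hp hpN hpS.2.1 B hB υ hυ
    obtain ⟨t, d⟩ := htr i p hp hpN hpS.2.2 B hB υ hυ
    obtain ⟨tg, dg⟩ := htr i₀ (P g) (hP g) (hPN g) (hPS g).2 (A g) (hA g) (τ g) (hτ g)
    rw [eυ₀, ← hmk σ] at t0 d0
    rw [eυ] at t d
    have ea : a p = a (P g) := hsep i₀ hi₀ _ (hF _ (hval p hp hpN).1) _
      (hF _ (hval _ (hP g) (hPN g)).1) (t0.symm.trans tg)
    have ee : e p = e (P g) := hsep i₀ hi₀ _ (hF _ (hval p hp hpN).2) _
      (hF _ (hval _ (hP g) (hPN g)).2) (d0.symm.trans dg)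
    exact ⟨ea ▸ t, ee ▸ d⟩
  obtain ⟨r, hr⟩ := exists_rep_complex_of_reductions R (fun g : G => a (P g)) (fun g => e (P g))
    (fun i : {i // φ i Dp ≠ 0} => k i.1) (fun i => φ i.1)
    (fun x hx => hgood 0 x fun i hi _ => hx ⟨i, hi⟩) (fun ⟨i, hi⟩ =>
      ⟨QuotientGroup.lift (ρ i₀).ker (ρ i) fun σ hσ =>
        MonoidHom.mem_ker.mpr (hker i₀ i hi₀ σ (MonoidHom.mem_ker.mp hσ)), fun g => by
        induction g using QuotientGroup.induction_on with
        | _ σ => exact hall i hi σ⟩)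
  obtain ⟨L, hL, hL0⟩ := hfin i₀
  refine ⟨r.comp (QuotientGroup.mk' (ρ i₀).ker), ⟨L, hL, fun σ hσ => ?_⟩, ?_,
    fun p hp hpN B hB => ⟨fun σ hσ => ?_, fun σ hσ => ?_⟩⟩
  · rw [MonoidHom.comp_apply, (QuotientGroup.eq_one_iff σ).mpr (hL0 σ hσ) |> fun h =>
      (h : QuotientGroup.mk' (ρ i₀).ker σ = 1), map_one]
  · exact (Set.finite_range r).subset (Set.range_comp_subset_range _ r)
  · obtain ⟨i, hi, hip⟩ : ∃ i, φ i Dp ≠ 0 ∧ ℓ i ≠ p := by
      by_contra h
      exact one_ne_zero (hgood p 1 fun i hi hip => absurd ⟨i, hi, hip⟩ h)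
    have h1 : ρ i₀ σ = 1 := hker i i₀ hi σ (hunr i p hp hpN (Ne.symm hip) B hB σ hσ)
    rw [MonoidHom.comp_apply, show QuotientGroup.mk' (ρ i₀).ker σ = 1 from
      (QuotientGroup.eq_one_iff σ).mpr h1, map_one]
  · obtain ⟨rt, rd⟩ := hr (QuotientGroup.mk σ : G)
    have h : ∀ i, φ i Dp ≠ 0 → ℓ i ≠ p → φ i (a (P (QuotientGroup.mk σ : G))) = φ i (a p) ∧
        φ i (e (P (QuotientGroup.mk σ : G))) = φ i (e p) := fun i hi hip => by
      obtain ⟨t, d⟩ := htr i p hp hpN (Ne.symm hip) B hB σ hσ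
      exact ⟨(hall i hi σ).1.symm.trans t, (hall i hi σ).2.symm.trans d⟩
    have ea : a (P (QuotientGroup.mk σ : G)) = a p := sub_eq_zero.mp (hgood p _ fun i hi hip => by
      rw [map_sub, (h i hi hip).1, sub_self])
    have ee : e (P (QuotientGroup.mk σ : G)) = e p := sub_eq_zero.mp (hgood p _ fun i hi hip => by
      rw [map_sub, (h i hi hip).2, sub_self])
    exact ⟨rt.trans (congrArg _ ea), rd.trans (congrArg _ ee)⟩

end Fermat.Agent.Row48

end
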