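import Fermat.Agent.Row48.Defs
import Fermat.Agent.Row48.GaloisLift

/-!
# The representation over `ℂ` from `ResidualReps` with bounded images

The reductions are the residue maps of valuation subrings of `ℂ` on the algebraic integers.
-/

set_option autoImplicit false

noncomputable section

namespace Fermat.Agent.Row48

local notation "Ω" => AlgebraicClosure ℚ
local notation "Γℚ" => (AlgebraicClosure ℚ ≃ₐ[ℚ] AlgebraicClosure ℚ)

/-- A homomorphism of finite level has finite range. -/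
theorem finite_range_of_finiteLevel {H : Type} [Group H] {ρ : Γℚ →* H}
    (h : GaloisFactorsThroughFiniteLevel ρ) : (Set.range ρ).Finite := by
  classical
  obtain ⟨L, _, hL⟩ := h
  let res : Γℚ → (L →ₐ[ℚ] Ω) := fun σ => σ.toAlgHom.comp L.val
  let F : (L →ₐ[ℚ] Ω) → H := fun e => if he : ∃ σ, res σ = e then ρ he.choose else 1
  refine (Set.finite_range F).subset ?_
  rintro _ ⟨σ, rfl⟩
  have he : ∃ σ', res σ' = res σ := ⟨σ, rfl⟩
  refine ⟨res σ, ?_⟩
  show dite _ _ _ = _
  rw [dif_pos he, ← inv_mul_eq_one, ← map_inv, ← map_mul]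
  exact hL _ fun x hx => (he.choose.symm_apply_eq).mpr
    (DFunLike.congr_fun he.choose_spec ⟨x, hx⟩).symm

/-- Algebraic integers lie in every valuation subring of `ℂ`. -/
theorem mem_of_isIntegral (A : ValuationSubring ℂ) {r : ℂ} (hr : IsIntegral ℤ r) : r ∈ A := by
  obtain ⟨y, hy⟩ := IsIntegrallyClosed.isIntegral_iff.mp (hr.tower_top (A := A))
  exact hy ▸ y.2

/-- A nonzero algebraic integer is a unit at all but finitely many residue characteristics. -/
theorem exists_bound_of_isIntegral {r : ℂ} (hr : IsIntegral ℤ r) (h0 : r ≠ 0) :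
    ∃ B : ℕ, ∀ ℓ : ℕ, ℓ.Prime → ∀ A : ValuationSubring ℂ, (ℓ : ℂ) ∈ A.nonunits →
      r ∈ A.nonunits → ℓ ≤ B := by
  set P := minpoly ℤ r
  have hc : P.coeff 0 ≠ 0 := fun h => by
    have h1 := minpoly.coeff_zero_ne_zero (hr.tower_top (A := ℚ)) h0
    rw [minpoly.isIntegrallyClosed_eq_field_fractions' ℚ hr, Polynomial.coeff_map, h, map_zero]
      at h1
    exact h1 rfl
  refine ⟨(P.coeff 0).natAbs, fun ℓ hℓ A hℓA hrA => Nat.le_of_dvd (Int.natAbs_pos.mpr hc) ?_⟩
  have h1 := congrArg (Polynomial.aeval r) P.X_mul_divX_add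
  rw [minpoly.aeval, map_add, map_mul, Polynomial.aeval_X, Polynomial.aeval_C,
    add_eq_zero_iff_eq_neg'] at h1
  have hrA' : r ∈ A := A.nonunits_subset hrA
  have hd : Polynomial.aeval r P.divX ∈ A := mem_of_isIntegral A
    (IsIntegral.of_mem_of_fg (Algebra.adjoin ℤ {r}) hr.fg_adjoin_singleton _
      (Polynomial.aeval_mem_adjoin_singleton ℤ r))
  have hcA : ((P.coeff 0 : ℤ) : ℂ) ∈ A.nonunits := by
    rw [← eq_intCast (algebraMap ℤ ℂ), h1, ValuationSubring.mem_nonunits_iff, Valuation.map_neg,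
      map_mul]
    exact (mul_le_of_le_one_right zero_le ((A.valuation_le_one_iff _).mpr hd)).trans_lt
      (A.mem_nonunits_iff.mp hrA)
  by_contra hnd
  have hcop : IsCoprime (ℓ : ℤ) (P.coeff 0) := by
    rw [Int.isCoprime_iff_gcd_eq_one]
    exact (Nat.Prime.coprime_iff_not_dvd hℓ).mpr hnd
  obtain ⟨u, v, huv⟩ := hcop
  have h2 : (u : ℂ) * (ℓ : ℂ) + (v : ℂ) * ((P.coeff 0 : ℤ) : ℂ) = 1 := by exact_mod_cast huv
  have hu : A.valuation ((u : ℂ) * ℓ) < 1 := by
    rw [map_mul]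
    exact (mul_le_of_le_one_left zero_le
      ((A.valuation_le_one_iff _).mpr (intCast_mem A u))).trans_lt
      (A.mem_nonunits_iff.mp hℓA)
  have hv : A.valuation ((v : ℂ) * ((P.coeff 0 : ℤ) : ℂ)) < 1 := by
    rw [map_mul]
    exact (mul_le_of_le_one_left zero_le
      ((A.valuation_le_one_iff _).mpr (intCast_mem A v))).trans_lt
      (A.mem_nonunits_iff.mp hcA)
  have h3 := (A.valuation.map_add ((u : ℂ) * ℓ) _).trans_lt (max_lt hu hv)
  rw [h2, map_one] at h3
  exact lt_irrefl _ h3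

/-- The images of the residual representations are bounded. -/
def BoundedImages (N : ℕ) (ε : DirichletCharacter ℂ N) (a : ℕ → ℂ) : Prop :=
  ∃ M : ℕ, ∀ ℓ : ℕ, ℓ.Prime → M < ℓ → ∀ A : ValuationSubring ℂ, (ℓ : ℂ) ∈ A.nonunits →
    ∀ ρ : Γℚ →* GL (Fin 2) (IsLocalRing.ResidueField A),
      GaloisFactorsThroughFiniteLevel ρ →
      (Deformation.matrixRepresentation ρ).IsSemisimpleRepresentation →
      (∀ p : ℕ, p.Prime → ¬ p ∣ N * ℓ →
        ∀ P : ValuationSubring (AlgebraicClosure ℚ), P.LiesOverPrime p →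
          (∀ σ ∈ P.inertiaSubgroupIn ℚ, ρ σ = 1) ∧
          ∀ σ : Γℚ, P.IsFrobeniusAt σ p → ∀ x y : A, (x : ℂ) = a p →
            (y : ℂ) = ε (p : ZMod N) →
              (ρ σ : Matrix (Fin 2) (Fin 2) (IsLocalRing.ResidueField A)).trace =
                  IsLocalRing.residue A x ∧
                (ρ σ : Matrix (Fin 2) (Fin 2) (IsLocalRing.ResidueField A)).det =
                  IsLocalRing.residue A y) →
      Nat.card ρ.range ≤ M

/-- Values of a Dirichlet character are algebraic integers. -/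
theorem isIntegral_char {N : ℕ} [NeZero N] (ε : DirichletCharacter ℂ N) (x : ZMod N) :
    IsIntegral ℤ (ε x) := by
  by_cases hx : IsUnit x
  · refine IsIntegral.of_pow (n := Nat.card (ZMod N)ˣ) Nat.card_pos ?_
    rw [← map_pow, ← hx.unit_spec, ← Units.val_pow_eq_pow_val, pow_card_eq_one', Units.val_one,
      map_one]
    exact isIntegral_one
  · rw [MulChar.map_nonunit _ hx]
    exact isIntegral_zero

/-- **The representation over `ℂ`.** -/
theorem exists_galoisRep_of_residualReps {N : ℕ} [NeZero N] (ε : DirichletCharacter ℂ N)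
    (a : ℕ → ℂ) (hint : ∀ p : ℕ, p.Prime → ¬ p ∣ N → IsIntegral ℤ (a p))
    (hR : ResidualReps N ε a) (hB : BoundedImages N ε a) :
    ∃ r : Γℚ →* GL (Fin 2) ℂ, GaloisFactorsThroughFiniteLevel r ∧ (Set.range r).Finite ∧
      ∀ p : ℕ, p.Prime → ¬ p ∣ N → ∀ A : ValuationSubring Ω, A.LiesOverPrime p →
        (∀ σ ∈ A.inertiaSubgroupIn ℚ, r σ = 1) ∧
        ∀ σ : Γℚ, A.IsFrobeniusAt σ p →
          (r σ).val.trace = a p ∧ (r σ).val.det = ε (p : ZMod N) := by
  classical
  obtain ⟨M, hM⟩ := hB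
  choose ℓ hlt hℓ A hA ρ hfin hss hρ using fun i : ℕ => hR (max i M)
  let R : Subring ℂ := (integralClosure ℤ ℂ).toSubring
  let φ : ∀ i, R →+* IsLocalRing.ResidueField (A i) := fun i =>
    (IsLocalRing.residue (A i)).comp
      (Subring.inclusion (T := (A i).toSubring) fun x hx => mem_of_isIntegral (A i) hx)
  let a' : ℕ → R := fun p => if h : IsIntegral ℤ (a p) then ⟨a p, h⟩ else 0
  let e' : ℕ → R := fun p => ⟨ε (p : ZMod N), isIntegral_char ε _⟩
  have ha' : ∀ p : ℕ, p.Prime → ¬ p ∣ N → (a' p : ℂ) = a p := fun p hp hpN => by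
    simp only [a', dif_pos (hint p hp hpN)]
  have hcast : ∀ i (n : ℕ), 0 < n → n ≤ M → (n : IsLocalRing.ResidueField (A i)) ≠ 0 := by
    intro i n hn0 hnM h0
    have hℓ0 : (ℓ i : IsLocalRing.ResidueField (A i)) = 0 := by
      rw [← map_natCast (IsLocalRing.residue (A i)), IsLocalRing.residue_eq_zero_iff,
        ← ValuationSubring.coe_mem_nonunits_iff]
      simpa using hA i
    have hcop : Nat.Coprime (ℓ i) n := (hℓ i).coprime_iff_not_dvd.mpr fun hd => by
      have := Nat.le_of_dvd hn0 hd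
      have := (le_max_right i M).trans_lt (hlt i)
      omega
    obtain ⟨u, v, huv⟩ := (Nat.isCoprime_iff_coprime.mpr hcop : IsCoprime (ℓ i : ℤ) (n : ℤ))
    have h := congrArg (fun z : ℤ => (z : IsLocalRing.ResidueField (A i))) huv
    simp [hℓ0, h0] at h
  have hrange : ∀ i, (ρ i).range.carrier.Finite ∧ Nat.card (ρ i).range ≤ M := fun i =>
    ⟨finite_range_of_finiteLevel (hfin i),
      hM (ℓ i) (hℓ i) ((le_max_right i M).trans_lt (hlt i)) (A i) (hA i) (ρ i) (hfin i) (hss i)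
        (hρ i)⟩
  have hdvd : ∀ i (p : ℕ), p.Prime → ¬ p ∣ N → p ≠ ℓ i → ¬ p ∣ N * ℓ i := fun i p hp hpN hne h =>
    (hp.dvd_mul.mp h).elim hpN fun h => hne ((Nat.prime_dvd_prime_iff_eq hp (hℓ i)).mp h)
  obtain ⟨r, hr1, hr2, hr⟩ := exists_galoisRep_of_bounded_residual (ρ := ρ) (NeZero.ne N) R a' e' ℓ
    φ (fun p x hx => by
      by_contra hx0
      obtain ⟨B, hB⟩ := exists_bound_of_isIntegral x.2
        (fun h => hx0 (Subtype.ext h))
      obtain ⟨i, hi⟩ : ∃ i, max B p < i := ⟨max B p + 1, Nat.lt_succ_self _⟩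
      have hi' : max B p < ℓ i := hi.trans ((le_max_left i M).trans_lt (hlt i))
      have h := hx i (fun h => by rw [h] at hi'; exact absurd (le_max_right B p) (not_le.mpr hi'))
      rw [RingHom.comp_apply, IsLocalRing.residue_eq_zero_iff,
        ← ValuationSubring.coe_mem_nonunits_iff] at h
      exact absurd ((hB (ℓ i) (hℓ i) (A i) (hA i) h).trans (le_max_left B p)) (not_le.mpr hi'))
    M hcast hfin hrange
      (fun i p hp hpN hne P hP σ hσ => (hρ i p (hp) (hdvd i p hp hpN hne) P hP).1 σ hσ)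
    (fun i p hp hpN hne P hP σ hσ =>
      (hρ i p hp (hdvd i p hp hpN hne) P hP).2 σ hσ _ _ (ha' p hp hpN) rfl)
  refine ⟨r, hr1, hr2, fun p hp hpN P hP => ⟨(hr p hp hpN P hP).1, fun σ hσ => ?_⟩⟩
  obtain ⟨ht, hd⟩ := (hr p hp hpN P hP).2 σ hσ
  exact ⟨ht.trans (ha' p hp hpN), hd⟩

end Fermat.Agent.Row48

end
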