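import Fermat.Agent.Row48.GroupBound
import Fermat.Agent.Row48.Family

/-!
# The images of the residual representations are bounded

By `ExceptionBound` and the density theorem all but an eighth of the elements of an image have
trace and determinant in the reduction of a fixed finite set; `exists_bounded_range` and
semisimplicity bound the image.
-/

set_option autoImplicit false

noncomputable section

namespace Fermat.Agent.Row48

open Filter

local notation "Γℚ" => (AlgebraicClosure ℚ ≃ₐ[ℚ] AlgebraicClosure ℚ)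

/-- The residue field of a valuation subring of `ℂ` is algebraically closed. -/
theorem isAlgClosed_residue (A : ValuationSubring ℂ) :
    IsAlgClosed (IsLocalRing.ResidueField A) := by
  refine IsAlgClosed.of_exists_root _ fun p hp hirr => ?_
  obtain ⟨q, hq, hdeg, hmon⟩ := Polynomial.lifts_and_degree_eq_and_monic
    (f := IsLocalRing.residue A) (p := p)
    ((Polynomial.lifts_iff_coeff_lifts p).mpr fun n => IsLocalRing.residue_surjective _) hp
  have hd : (q.map (algebraMap A ℂ)).degree ≠ 0 := by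
    rw [hmon.degree_map, hdeg]
    exact (Polynomial.degree_pos_of_irreducible hirr).ne'
  obtain ⟨z, hz⟩ := IsAlgClosed.exists_root _ hd
  obtain ⟨b, hb⟩ := IsIntegrallyClosed.isIntegral_iff.mp
    (show IsIntegral A z from ⟨q, hmon, by rwa [Polynomial.IsRoot.def, Polynomial.eval_map] at hz⟩)
  refine ⟨IsLocalRing.residue A b, ?_⟩
  rw [← hq, Polynomial.eval_map, Polynomial.eval₂_at_apply,
    show q.eval b = 0 from ?_, map_zero]
  apply Subtype.val_injective
  rw [Polynomial.IsRoot.def, Polynomial.eval_map, ← hb, Polynomial.eval₂_at_apply] at hz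
  exact hz

/-- A semisimple reducible two-dimensional representation is trivial where its trace is `2` and
its determinant `1`. -/
theorem eq_one_of_trace_det_of_reducible {k : Type} [Field k] {G : Type} [Group G]
    (ρ : G →* GL (Fin 2) k)
    (hss : (Deformation.matrixRepresentation ρ).IsSemisimpleRepresentation)
    {W : Submodule k (Fin 2 → k)}
    (hW : ∀ g, ∀ x ∈ W, Matrix.mulVec (ρ g : Matrix (Fin 2) (Fin 2) k) x ∈ W)
    (h0 : W ≠ ⊥) (h1 : W ≠ ⊤) {g : G}
    (ht : (ρ g : Matrix (Fin 2) (Fin 2) k).trace = 2)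
    (hd : (ρ g : Matrix (Fin 2) (Fin 2) k).det = 1) : ρ g = 1 := by
  let R := Deformation.matrixRepresentation ρ
  have happ : ∀ g x, R g x = Matrix.mulVec (ρ g : Matrix (Fin 2) (Fin 2) k) x := fun g x => by
    rw [Deformation.matrixRepresentation_apply, Matrix.mulVecLin_apply]
  let W₁ : Subrepresentation R := ⟨W, fun g v hv => by rw [happ]; exact hW g v hv⟩
  obtain ⟨W₂, hc⟩ := hss.exists_isCompl W₁
  have hinf : W ⊓ W₂.toSubmodule = ⊥ := by
    rw [show W = W₁.toSubmodule from rfl, ← Subrepresentation.toSubmodule_inf, hc.inf_eq_bot]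
    rfl
  have hsup : W ⊔ W₂.toSubmodule = ⊤ := by
    rw [show W = W₁.toSubmodule from rfl, ← Subrepresentation.toSubmodule_sup, hc.sup_eq_top]
    rfl
  have hdim : Module.finrank k W = 1 ∧ Module.finrank k W₂.toSubmodule = 1 := by
    have h := Submodule.finrank_sup_add_finrank_inf_eq W W₂.toSubmodule
    rw [hinf, hsup, finrank_top, finrank_bot, Module.finrank_fin_fun] at h
    have ha : 0 < Module.finrank k W :=
      Nat.pos_of_ne_zero fun h' => h0 (Submodule.finrank_eq_zero.mp h')
    have hb := Submodule.finrank_lt h1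
    rw [Module.finrank_fin_fun] at hb
    omega
  have key : ∀ U : Submodule k (Fin 2 → k), Module.finrank k U = 1 →
      (∀ x ∈ U, Matrix.mulVec (ρ g : Matrix (Fin 2) (Fin 2) k) x ∈ U) →
      ∀ x ∈ U, Matrix.mulVec (ρ g : Matrix (Fin 2) (Fin 2) k) x = x := by
    intro U hU hinv x hx
    obtain ⟨⟨v, hv⟩, hv0, hall⟩ := finrank_eq_one_iff'.mp hU
    obtain ⟨c, hc⟩ := hall ⟨_, hinv v hv⟩
    have hc' : (ρ g : Matrix (Fin 2) (Fin 2) k).mulVec v = c • v :=
      (congrArg Subtype.val hc).symm
    have hv0' : v ≠ 0 := fun h => hv0 (Subtype.ext h)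
    have hdet0 : ((ρ g : Matrix (Fin 2) (Fin 2) k) - c • 1).det = 0 :=
      Matrix.exists_mulVec_eq_zero_iff.mp ⟨v, hv0', by
        rw [Matrix.sub_mulVec, Matrix.smul_mulVec, Matrix.one_mulVec, hc', sub_self]⟩
    simp only [Matrix.det_fin_two, Matrix.sub_apply, Matrix.smul_apply, Matrix.one_apply_eq,
      Matrix.one_apply_ne (show (0 : Fin 2) ≠ 1 by decide),
      Matrix.one_apply_ne (show (1 : Fin 2) ≠ 0 by decide), smul_eq_mul] at hdet0
    rw [Matrix.trace_fin_two] at ht
    rw [Matrix.det_fin_two] at hd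
    have hc1 : c = 1 := by
      have h2 : (c - 1) * (c - 1) = 0 := by linear_combination hdet0 + c * ht - hd
      exact sub_eq_zero.mp (mul_self_eq_zero.mp h2)
    obtain ⟨d, hd'⟩ := hall ⟨x, hx⟩
    have hx' : x = d • v := (congrArg Subtype.val hd').symm
    rw [hx', Matrix.mulVec_smul, hc', hc1, one_smul]
  refine Units.ext (Matrix.ext_of_mulVec_single fun i => ?_)
  rw [Units.val_one, Matrix.one_mulVec]
  obtain ⟨a, ha, b, hb, e⟩ := Submodule.mem_sup.mp
    (show (Pi.single i 1 : Fin 2 → k) ∈ W ⊔ W₂.toSubmodule from hsup ▸ Submodule.mem_top)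
  rw [← e, Matrix.mulVec_add, key W hdim.1 (hW g) a ha,
    key W₂.toSubmodule hdim.2 (fun x hx => by
      rw [← happ]; exact W₂.apply_mem_toSubmodule g hx) b hb]

/-- **A semisimple representation with few traces and determinants has small image.** -/
theorem card_range_le_of_semisimple {k : Type} [Field k] [IsAlgClosed k] {G : Type} [Group G]
    (ρ : G →* GL (Fin 2) k) [Finite ρ.range]
    (hss : (Deformation.matrixRepresentation ρ).IsSemisimpleRepresentation)
    (T : Finset (k × k)) (H : Finset ρ.range)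
    (hH : ∀ g ∈ H, ((g.1 : Matrix (Fin 2) (Fin 2) k).trace,
      (g.1 : Matrix (Fin 2) (Fin 2) k).det) ∈ T)
    (hc : 8 * Nat.card ρ.range ≤ 8 * H.card + Nat.card ρ.range) :
    Nat.card ρ.range ≤ 4 * T.card + 2 * T.card ^ 4 := by
  classical
  let r : ρ.range →* GL (Fin 2) k := ρ.range.subtype
  have hr : Nat.card r.range = Nat.card ρ.range := by rw [Subgroup.range_subtype]
  by_cases hirr : ∀ W : Submodule k (Fin 2 → k),
      (∀ g, ∀ x ∈ W, Matrix.mulVec (r g : Matrix (Fin 2) (Fin 2) k) x ∈ W) → W = ⊥ ∨ W = ⊤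
  · have h := card_range_le_of_irreducible r hirr (T.image Prod.fst) H
      (fun g hg => Finset.mem_image_of_mem Prod.fst (hH g hg)) hc
    have h2 : (T.image Prod.fst).card ^ 4 ≤ T.card ^ 4 :=
      Nat.pow_le_pow_left Finset.card_image_le 4
    omega
  · push Not at hirr
    obtain ⟨W, hW, h0, h1⟩ := hirr
    obtain ⟨r', hr', hcard⟩ := exists_bounded_range r T H hH hc
    have hinj : Function.Injective r' := by
      refine (injective_iff_map_eq_one r').mpr fun g hg => Subtype.ext ?_
      obtain ⟨σ, hσ⟩ := g.2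
      obtain ⟨ht, hd⟩ := hr' g
      rw [hg, Units.val_one, Matrix.trace_one, Fintype.card_fin] at ht
      rw [hg, Units.val_one, Matrix.det_one] at hd
      show g.1 = 1
      rw [← hσ]
      refine eq_one_of_trace_det_of_reducible ρ hss (fun τ => hW ⟨ρ τ, τ, rfl⟩) h0 h1 ?_ ?_
      · rw [hσ]; exact ht.symm.trans (by norm_num)
      · rw [hσ]; exact hd.symm
    calc Nat.card ρ.range = Nat.card r'.range :=
          Nat.card_congr (MonoidHom.ofInjective hinj).toEquiv
      _ ≤ _ := hcard

/-- Monotonicity of prime weights. -/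
theorem primeWeight_mono {P Q : ℕ → Prop} (h : ∀ p : ℕ, p.Prime → P p → Q p) {s : ℝ} (hs : 1 < s) :
    primeWeight P s ≤ primeWeight Q s := by
  have hsum : Summable fun p : Nat.Primes => ((p : ℕ) : ℝ) ^ (-s) :=
    Nat.Primes.summable_rpow.mpr (by linarith)
  refine Summable.tsum_le_tsum (fun p => ?_) (hsum.indicator _) (hsum.indicator _)
  by_cases hp : P p
  · rw [Set.indicator_of_mem (s := {q : Nat.Primes | P q}) hp,
      Set.indicator_of_mem (s := {q : Nat.Primes | Q q}) (h p p.2 hp)]
  · rw [Set.indicator_of_notMem (s := {q : Nat.Primes | P q}) hp]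
    exact Set.indicator_nonneg (fun q _ => by positivity) p

/-- **Bounded images.** -/
theorem boundedImages {N : ℕ} [NeZero N] {ε : DirichletCharacter ℂ N} {a : ℕ → ℂ}
    (hE : ExceptionBound N a) (hD : DensityLower) : BoundedImages N ε a := by
  classical
  obtain ⟨Y, hY, C, hC⟩ := hE (1 / 16) (by norm_num)
  refine ⟨4 * (Y.card * N) + 2 * (Y.card * N) ^ 4, ?_⟩
  intro ℓ hℓ _ A hℓA ρ hfin hss hρ
  have := isAlgClosed_residue A
  have : Finite ρ.range := by
    have h := (finite_range_of_finiteLevel hfin).to_subtype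
    exact h
  let res : A →+* IsLocalRing.ResidueField A := IsLocalRing.residue A
  let ey : DirichletCharacter ℂ N → ZMod N → A := fun ε x =>
    ⟨ε x, mem_of_isIntegral A (isIntegral_char ε x)⟩
  let T : Finset (IsLocalRing.ResidueField A × IsLocalRing.ResidueField A) :=
    (Y.attach.image fun y => res ⟨y.1, mem_of_isIntegral A (hY y.1 y.2)⟩) ×ˢ
      (Finset.univ.image fun x : ZMod N => res (ey ε x))
  have hTcard : T.card ≤ Y.card * N := by
    rw [Finset.card_product]
    refine Nat.mul_le_mul (Finset.card_image_le.trans (by rw [Finset.card_attach])) ?_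
    exact Finset.card_image_le.trans (by rw [Finset.card_univ, ZMod.card])
  let val : ρ.range → IsLocalRing.ResidueField A × IsLocalRing.ResidueField A := fun g =>
    ((g.1 : Matrix (Fin 2) (Fin 2) (IsLocalRing.ResidueField A)).trace,
      (g.1 : Matrix (Fin 2) (Fin 2) (IsLocalRing.ResidueField A)).det)
  let bad : Set ρ.range := {g | val g ∉ T}
  have hfac : GaloisFactorsThroughFiniteLevel ρ.rangeRestrict := by
    obtain ⟨L, hL, h⟩ := hfin
    exact ⟨L, hL, fun σ hσ => Subtype.ext (h σ hσ)⟩
  obtain ⟨C', hC'⟩ := hD ρ.range ρ.rangeRestrict ρ.rangeRestrict_surjective hfac bad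
    (N * ℓ).primeFactors (fun g h hh => by
      have hv : val (g * h * g⁻¹) = val h := by
        simp only [val, Subgroup.coe_mul, Subgroup.coe_inv, Units.val_mul]
        rw [Matrix.trace_mul_cycle, ← Units.val_mul g.1⁻¹, inv_mul_cancel, Units.val_one, one_mul,
          Matrix.det_mul, Matrix.det_mul, mul_right_comm, ← Matrix.det_mul, ← Units.val_mul,
          mul_inv_cancel, Units.val_one, Matrix.det_one, one_mul]
      simpa [bad, hv] using hh) (1 / 32) (by norm_num)
  set c := (Nat.card bad : ℝ) / Nat.card ρ.range with hc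
  have hcle : c ≤ 1 / 8 := by
    by_contra hlt
    rw [not_le] at hlt
    have hev : ∀ᶠ s in nhdsWithin (1 : ℝ) (Set.Ioi 1),
        (c - 1 / 32 - 1 / 16) * poleLog s ≤ C + C' := by
      filter_upwards [Ioc_mem_nhdsGT (one_lt_two : (1 : ℝ) < 2)] with s hs
      have h1 := hC' s hs
      have h2 := hC s hs
      have h3 : primeWeight (fun p ↦ p ∉ (N * ℓ).primeFactors ∧
          ∃ P : ValuationSubring (AlgebraicClosure ℚ), P.LiesOverPrime p ∧
            ∃ σ : Γℚ, P.IsFrobeniusAt σ p ∧ ρ.rangeRestrict σ ∈ bad) s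
          ≤ primeWeight (fun p ↦ ¬ p ∣ N ∧ a p ∉ Y) s := by
        refine primeWeight_mono (fun p hp hP => ?_) hs.1
        obtain ⟨hpS, P, hPp, σ, hσ, hbad⟩ := hP
        have hpd : ¬ p ∣ N * ℓ := fun h => hpS
          (Nat.mem_primeFactors.mpr ⟨hp, h, mul_ne_zero (NeZero.ne N) hℓ.ne_zero⟩)
        refine ⟨fun h => hpd (h.mul_right ℓ), fun hYp => hbad ?_⟩
        obtain ⟨ht, hd⟩ := (hρ p hp hpd P hPp).2 σ hσ ⟨a p, mem_of_isIntegral A (hY _ hYp)⟩
          (ey ε p) rfl rfl
        refine Finset.mem_product.mpr ⟨Finset.mem_image.mpr ⟨⟨a p, hYp⟩, Finset.mem_attach _ _, ?_⟩,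
          Finset.mem_image.mpr ⟨(p : ZMod N), Finset.mem_univ _, ?_⟩⟩
        · exact ht.symm
        · exact hd.symm
      rw [sub_mul]
      linarith
    have htop : Tendsto (fun s : ℝ => (c - 1 / 32 - 1 / 16) * poleLog s)
        (nhdsWithin (1 : ℝ) (Set.Ioi 1)) atTop := by
      refine Tendsto.const_mul_atTop (by linarith) (Real.tendsto_log_atTop.comp
        (tendsto_inv_nhdsGT_zero.comp (tendsto_nhdsWithin_iff.mpr ⟨?_, ?_⟩)))
      · have h : Tendsto (fun s : ℝ ↦ s - 1) (nhds 1) (nhds (1 - 1)) :=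
          (continuous_sub_right 1).tendsto 1
        rw [sub_self] at h
        exact h.mono_left nhdsWithin_le_nhds
      · filter_upwards [self_mem_nhdsWithin] with s hs
        exact Set.mem_Ioi.mpr (sub_pos.mpr hs)
    obtain ⟨s, hs1, hs2⟩ := (hev.and (htop.eventually_gt_atTop (C + C'))).exists
    linarith
  have := Fintype.ofFinite ρ.range
  let H : Finset ρ.range := Finset.univ.filter fun g => val g ∈ T
  have hcount : 8 * Nat.card ρ.range ≤ 8 * H.card + Nat.card ρ.range := by
    have hbadc : Nat.card bad = Hᶜ.card := by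
      rw [Nat.card_eq_card_toFinset]
      congr 1
      ext g
      simp [bad, H]
    have h1 : 8 * Nat.card bad ≤ Nat.card ρ.range := by
      rw [hc, div_le_iff₀ (Nat.cast_pos.mpr Nat.card_pos)] at hcle
      have h' : ((8 * Nat.card bad : ℕ) : ℝ) ≤ (Nat.card ρ.range : ℝ) := by
        push_cast; linarith
      exact_mod_cast h'
    rw [hbadc, Finset.card_compl] at h1
    have := H.card_le_univ
    rw [Nat.card_eq_fintype_card] at h1 ⊢
    omega
  refine (card_range_le_of_semisimple ρ hss T H (fun g hg => (Finset.mem_filter.mp hg).2)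
    hcount).trans ?_
  exact Nat.add_le_add (Nat.mul_le_mul_left 4 hTcard)
    (Nat.mul_le_mul_left 2 (Nat.pow_le_pow_left hTcard 4))

end Fermat.Agent.Row48

end
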