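import Fermat.Agent.Chebotarev.Density

/-!
# Chebotarev density in a cyclotomically separated cyclic case

The density form of `Chebotarev.exists_frobenius_conj_eq`, with the same proof.
-/

set_option autoImplicit false

noncomputable section

namespace Fermat.Agent.Row48

open NumberField Filter Topology Fermat.Agent.Chebotarev
open scoped Pointwise BigOperators

variable {E : Type*} [Field E] [NumberField E] [IsGalois ℚ E]

open Classical in
/-- The primes with Frobenius conjugate to a cyclotomically separated `u` have the expected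
density. -/
theorem logSum_frobenius_conj {m : ℕ} [NeZero m] {ζ : E} (hζ : IsPrimitiveRoot ζ m)
    (u : E ≃ₐ[ℚ] E)
    (hinj : ∀ g ∈ Subgroup.zpowers u, hζ.autToPow ℚ g = 1 → g = 1)
    (hneg : ∀ g ∈ Subgroup.zpowers u, hζ.autToPow ℚ g ≠ -1)
    (hL : ∀ (m' : ℕ) [NeZero m'] (χ : DirichletCharacter ℂ m'), χ.Even →
      LSeriesDichotomy (IntermediateField.fixedField (Subgroup.zpowers u)) χ)
    (Fr : Nat.Primes → E ≃ₐ[ℚ] E) (Qf : Nat.Primes → Ideal (𝓞 E))
    (hFr : ∀ p : Nat.Primes, IsFrobPair p (Fr p) (Qf p)) :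
    LogSum (fun p ↦ (Nat.card {g : E ≃ₐ[ℚ] E // g⁻¹ * Fr p * g = u} : ℂ)) 1 := by
  classical
  set U := Subgroup.zpowers u with hU
  set M := IntermediateField.fixedField U
  set cyc : (E ≃ₐ[ℚ] E) →* (ZMod m)ˣ := hζ.autToPow ℚ with hcyc
  -- the bad primes
  obtain ⟨nc, hnc0, hnc⟩ := exists_autToPow_frob hζ
  choose nH hnH0 hnH using fun H : Subgroup (E ≃ₐ[ℚ] E) ↦ exists_idealCount_eq_card_fixedBy E H
  have : Fintype (Subgroup (E ≃ₐ[ℚ] E)) := Fintype.ofFinite _
  obtain ⟨B, hB⟩ := exists_bound_exp_primeSum M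
  set N : ℕ := m * nc * (∏ H, nH H) * B.factorial with hN
  have hN0 : N ≠ 0 := by
    simp only [hN, mul_ne_zero_iff, Finset.prod_ne_zero_iff]
    exact ⟨⟨⟨NeZero.ne m, hnc0⟩, fun H _ ↦ hnH0 H⟩, B.factorial_ne_zero⟩
  have : NeZero N := ⟨hN0⟩
  have hmN : m ∣ N := ⟨nc * (∏ H, nH H) * B.factorial, by rw [hN]; ring⟩
  let good : Nat.Primes → Prop := fun p ↦ ¬ (p : ℕ) ∣ N
  have hbadfin : {p : Nat.Primes | ¬ good p}.Finite := by
    refine Set.Finite.of_finite_image ((Set.finite_Iic N).subset ?_)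
      Nat.Primes.coe_nat_injective.injOn
    rintro _ ⟨p, hp, rfl⟩
    exact Nat.le_of_dvd (Nat.pos_of_ne_zero hN0) (not_not.mp hp)
  have hgood_cyc : ∀ p, good p → ((cyc (Fr p) : (ZMod m)ˣ) : ZMod m) = ((p : ℕ) : ZMod m) :=
    fun p hp ↦ hnc p p.2 (fun h ↦ hp (h.trans ⟨m * (∏ H, nH H) * B.factorial,
      by rw [hN]; ring⟩)) _ _ (hFr p)
  -- weights attached to subgroups
  let wt : Subgroup (E ≃ₐ[ℚ] E) → Nat.Primes → ℂ := fun H p ↦
    if good p then (conjCount H (Fr p) : ℂ) else 0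
  have hwtB : ∀ H, WBounded (wt H) := fun H ↦ ⟨Nat.card (E ≃ₐ[ℚ] E), fun p ↦ by
    simp only [wt]
    split_ifs
    · rw [Complex.norm_natCast]; exact_mod_cast conjCount_le H _
    · simp⟩
  have hcount : ∀ (H : Subgroup (E ≃ₐ[ℚ] E)) (p : Nat.Primes), good p → (conjCount H (Fr p) : ℂ)
      = (Nat.card H : ℂ) * idealCount (IntermediateField.fixedField H) p := by
    intro H p hp
    have hpn : ¬ (p : ℕ) ∣ nH H := fun h ↦ hp ((h.trans (Finset.dvd_prod_of_mem _
      (Finset.mem_univ H))).trans ⟨m * nc * B.factorial, by rw [hN]; ring⟩)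
    rw [conjCount_eq_card_mul, hnH H p p.2 hpn _ _ (hFr p).1 (hFr p).2.1 (hFr p).2.2]
    push_cast
    rfl
  have hwt : ∀ H, LogSum (wt H) (Nat.card H) := by
    intro H
    have h1 := (logSum_idealCount (IntermediateField.fixedField H)).const_mul (Nat.card H : ℂ)
    rw [mul_one] at h1
    have hfin : {p | wt H p - (Nat.card H : ℂ) * idealCount (IntermediateField.fixedField H) p
        ≠ 0}.Finite := hbadfin.subset fun p hp hg ↦
          hp (by simp only [wt, if_pos hg, hcount H p hg, sub_self])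
    have hb : WBounded fun p : Nat.Primes ↦
        (Nat.card H : ℂ) * idealCount (IntermediateField.fixedField H) p := by
      refine WBounded.const_mul
        ⟨2 ^ Module.finrank ℚ (IntermediateField.fixedField H), fun p ↦ ?_⟩ _
      rw [Complex.norm_natCast]
      have := idealCount_prime_pow_le (IntermediateField.fixedField H) p.2 1
      rw [pow_one] at this
      exact_mod_cast this
    have h3 := LogSum.add hb (WBounded.of_finite hfin) h1 (LogSum.of_finite hfin)
    rw [add_zero] at h3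
    exact h3.congr fun p ↦ add_sub_cancel _ _
  -- values on the support of `wt U`
  set τ : ZMod m := ((cyc u : (ZMod m)ˣ) : ZMod m) with hτ
  have hsupp : ∀ p, wt U p ≠ 0 → good p ∧ ∃ (g : (E ≃ₐ[ℚ] E)) (j : ℤ), g⁻¹ * Fr p * g = u ^ j ∧
      ((p : ℕ) : ZMod m) = (((cyc u) ^ j : (ZMod m)ˣ) : ZMod m) := by
    intro p hp
    have hg : good p := (Classical.em (good p)).resolve_right fun h ↦ hp (if_neg h)
    have hne : conjCount U (Fr p) ≠ 0 := fun h ↦ hp (by simp [wt, hg, h])
    obtain ⟨g, hgU⟩ := exists_of_conjCount_ne_zero hne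
    obtain ⟨j, hj⟩ := Subgroup.mem_zpowers_iff.mp hgU
    refine ⟨hg, g, j, hj.symm, ?_⟩
    rw [← map_zpow, hj, map_conj_eq, hgood_cyc p hg]
  have hneg' : ∀ i j : ℤ, (((cyc u) ^ i : (ZMod m)ˣ) : ZMod m)
      ≠ -(((cyc u) ^ j : (ZMod m)ˣ) : ZMod m) := by
    intro i j h
    refine hneg (u ^ (i - j)) (Subgroup.zpow_mem_zpowers u _) ?_
    have h' : (cyc u) ^ i = -((cyc u) ^ j) := Units.ext (by rw [Units.val_neg]; exact h)
    rw [map_zpow, zpow_sub, h', neg_mul, mul_inv_cancel]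
  -- even characters
  set X := (Finset.univ : Finset (DirichletCharacter ℂ m)).filter (fun χ ↦ χ.Even) with hX
  set X₀ := X.filter (fun χ ↦ χ τ = 1) with hX₀
  set X₁ := X.filter (fun χ ↦ χ τ ≠ 1) with hX₁
  let P : DirichletCharacter ℂ m → Nat.Primes → ℂ := fun χ p ↦ χ ((p : ℕ) : ZMod m) * wt U p
  have hPB : ∀ χ, WBounded (P χ) := fun χ ↦
    WBounded.mul ⟨1, fun p ↦ DirichletCharacter.norm_le_one χ _⟩ (hwtB U)
  have hP₀ : ∀ χ ∈ X₀, LogSum (P χ) (Nat.card U) := by
    intro χ hχ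
    refine (hwt U).congr fun p ↦ ?_
    by_cases hp : wt U p = 0
    · simp only [P, hp, mul_zero]
    · obtain ⟨-, g, j, -, hpj⟩ := hsupp p hp
      have hτ1 : χ.toUnitHom (cyc u) = 1 := Units.ext (by
        rw [MulChar.coe_toUnitHom]; exact (Finset.mem_filter.mp hχ).2)
      simp only [P]
      rw [hpj, ← MulChar.coe_toUnitHom, map_zpow, hτ1, one_zpow, Units.val_one, one_mul]
  -- restricting `p mod m` to one value
  have hunit : ∀ j : ℤ, IsUnit (((cyc u) ^ j : (ZMod m)ˣ) : ZMod m) := fun j ↦ Units.isUnit _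
  have hproj : ∀ (j : ℤ) (p : Nat.Primes),
      ∑ χ ∈ X, χ (((cyc u) ^ j : (ZMod m)ˣ) : ZMod m)⁻¹ * P χ p
        = if ((p : ℕ) : ZMod m) = (((cyc u) ^ j : (ZMod m)ˣ) : ZMod m)
          then (m.totient : ℂ) / 2 * wt U p else 0 := by
    intro j p
    simp only [P, ← mul_assoc]
    rw [← Finset.sum_mul, hX, sum_even_char (hunit j)]
    by_cases hp : wt U p = 0
    · simp [hp]
    · obtain ⟨-, g, i, -, hpi⟩ := hsupp p hp
      rw [if_neg (show ¬ _ = -((p : ℕ) : ZMod m) by rw [hpi]; exact hneg' j i)]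
      split_ifs with h1 h2 h2
      · ring
      · exact absurd h1.symm h2
      · exact absurd h2.symm h1
      · ring
  -- the number of even characters trivial on `τ`
  have hq : Nat.card U = orderOf u := Nat.card_zpowers u
  have hcard : (X₀.card : ℂ) * Nat.card U = (m.totient : ℂ) / 2 := by
    set q := orderOf u
    have hq0 : 0 < q := orderOf_pos u
    have hsum : ∑ i ∈ Finset.range q, ∑ χ ∈ X, χ ((1 : ZMod m))⁻¹ * χ (τ ^ i)
        = (m.totient : ℂ) / 2 := by
      rw [Finset.sum_eq_single 0]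
      · rw [pow_zero, hX, sum_even_char isUnit_one, if_pos rfl, if_neg, add_zero, mul_one]
        simpa using hneg' 0 0
      · intro i hi hi0
        have hne1 : (1 : ZMod m) ≠ τ ^ i := fun h ↦ by
          have h1 : cyc (u ^ i) = 1 :=
            Units.ext (by rw [map_pow, Units.val_pow_eq_pow_val, ← h]; rfl)
          exact pow_ne_one_of_lt_orderOf hi0 (Finset.mem_range.mp hi)
            (hinj _ (Subgroup.npow_mem_zpowers u i) h1)
        rw [hX, sum_even_char isUnit_one, if_neg hne1, if_neg, add_zero, mul_zero]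
        simpa [hτ] using hneg' 0 i
      · simp [hq0.ne']
    rw [Finset.sum_comm] at hsum
    rw [← hsum, hq, hX₀, Finset.card_filter, Nat.cast_sum, Finset.sum_mul]
    refine Finset.sum_congr rfl fun χ _ ↦ ?_
    simp only [ZMod.inv_one, map_one, one_mul, map_pow]
    split_ifs with h
    · simp [h]
    · have hpow : (χ τ) ^ q = 1 := by
        rw [← map_pow, hτ, ← Units.val_pow_eq_pow_val, ← map_pow, pow_orderOf_eq_one, map_one,
          Units.val_one, map_one]
      rw [geom_sum_eq h, hpow, sub_self, zero_div, Nat.cast_zero, zero_mul]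
  -- the L-series of the even characters
  let lift : DirichletCharacter ℂ m → DirichletCharacter ℂ N := fun χ ↦
    DirichletCharacter.changeLevel hmN χ
  have hprime : ∀ χ s, primeSum (chiCoeff M (lift χ)) s
      = wSum (fun p ↦ (Nat.card U : ℂ)⁻¹ * P χ p) s := by
    intro χ s
    refine tsum_congr fun p ↦ congrArg (· * _) ?_
    rw [chiCoeff_of_ne_zero _ _ p.2.ne_zero]
    by_cases hp : good p
    · have hcop : IsUnit ((p : ℕ) : ZMod N) :=
        (ZMod.isUnit_iff_coprime _ _).mpr (p.2.coprime_iff_not_dvd.mpr hp)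
      have hval : lift χ ((p : ℕ) : ZMod N) = χ ((p : ℕ) : ZMod m) := by
        have h1 := DirichletCharacter.changeLevel_eq_cast_of_dvd χ hmN hcop.unit
        rw [IsUnit.unit_spec, ZMod.cast_natCast hmN] at h1
        exact h1
      rw [hval]
      simp only [P, wt, if_pos hp, hcount U p hp]
      have hne : (Nat.card U : ℂ) ≠ 0 := Nat.cast_ne_zero.mpr (Nat.card_pos (α := U)).ne'
      field_simp
      rfl
    · simp only [P, wt, if_neg hp, mul_zero]
      rw [MulChar.map_nonunit, zero_mul]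
      rw [ZMod.isUnit_iff_coprime]
      exact fun h ↦ hp (p.2.coprime_iff_not_dvd.mp h)
  have hsmall : ∀ p : ℕ, p.Prime → p ≤ B → p ∣ N := fun p hp hle ↦
    (Nat.dvd_factorial hp.pos hle).trans
      ⟨m * nc * (∏ H, nH H), by rw [hN]; ring⟩
  choose R hRc hR using fun χ ↦ hB (lift χ) hsmall
  let Φ : DirichletCharacter ℂ m → ℝ → ℂ := fun χ s ↦
    wSum (fun p ↦ (Nat.card U : ℂ)⁻¹ * P χ p) s + R χ s
  have hΦexp : ∀ χ, (fun s : ℝ ↦ LSeries (chiCoeff M (lift χ)) s) =ᶠ[𝓝[>] 1]
      fun s ↦ Complex.exp (Φ χ s) := fun χ ↦ by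
    filter_upwards [Ioc_mem_nhdsGT_one] with s hs
    rw [hR χ s hs, hprime]
  have hΦc : ∀ χ, ContinuousOn (Φ χ) (Set.Ioc 1 2) := fun χ ↦
    ((continuousOn_wSum ((hPB χ).const_mul _)).mono fun s hs ↦ hs.1).add
      ((hRc χ).mono Set.Ioc_subset_Icc_self)
  have hRlim : ∀ χ, Tendsto (R χ) (𝓝[>] 1) (𝓝 (R χ 1)) := fun χ ↦
    ((hRc χ) 1 (by simp)).tendsto.mono_left
      (nhdsWithin_le_of_mem (mem_of_superset Ioc_mem_nhdsGT_one Set.Ioc_subset_Icc_self))
  -- no pole for the characters nontrivial on `τ`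
  have hlim : ∀ χ ∈ X₁, ∃ l, Tendsto (fun s ↦ Complex.exp (Φ χ s)) (𝓝[>] 1) (𝓝 l) := by
    intro χ hχ
    obtain ⟨hχX, hχτ⟩ := Finset.mem_filter.mp hχ
    have heven : (lift χ).Even := by
      have h1 : lift χ ((-1 : (ZMod N)ˣ) : ZMod N) =
          χ (((-1 : (ZMod N)ˣ) : ZMod N).cast : ZMod m) :=
        DirichletCharacter.changeLevel_eq_cast_of_dvd χ hmN (-1)
      rw [Units.val_neg, Units.val_one, ZMod.cast_neg hmN, ZMod.cast_one hmN] at h1
      exact h1.trans (Finset.mem_filter.mp hχX).2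
    obtain ⟨a, ha, ha'⟩ := hL N (lift χ) heven
    suffices ha0 : a = 0 by
      obtain ⟨l, hl⟩ := ha' ha0
      exact ⟨l, hl.congr' (hΦexp χ)⟩
    by_contra ha0
    -- the values different from one have real part at most `θ < 1`
    let V : Finset ℝ := insert 0 ((Finset.univ.filter
      (fun c : (ZMod m)ˣ ↦ χ (c : ZMod m) ≠ 1)).image fun c : (ZMod m)ˣ ↦ (χ (c : ZMod m)).re)
    set θ := V.max' (Finset.insert_nonempty _ _) with hθ
    have hθ1 : θ < 1 := by
      rw [hθ, Finset.max'_lt_iff]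
      intro x hx
      simp only [V, Finset.mem_insert, Finset.mem_image, Finset.mem_filter, Finset.mem_univ,
        true_and] at hx
      rcases hx with rfl | ⟨c, hc, rfl⟩
      · exact one_pos
      · have hn : ‖χ (c : ZMod m)‖ = 1 := DirichletCharacter.unit_norm_eq_one χ c
        refine lt_of_le_of_ne ((Complex.re_le_norm _).trans_eq hn) fun hre ↦ hc (Complex.ext hre ?_)
        have hsq := Complex.sq_norm (χ (c : ZMod m))
        rw [hn, Complex.normSq_apply, hre] at hsq
        have h0 : (χ (c : ZMod m)).im * (χ (c : ZMod m)).im = 0 := by linarith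
        simpa using h0
    -- primes where `χ` is one
    let f : (E ≃ₐ[ℚ] E) →* ℂˣ := χ.toUnitHom.comp cyc
    set U' := U ⊓ f.ker with hU'
    have hf : ∀ p, good p → ((f (Fr p) : ℂˣ) : ℂ) = χ ((p : ℕ) : ZMod m) := fun p hp ↦ by
      simp only [f, MonoidHom.comp_apply, MulChar.coe_toUnitHom, hgood_cyc p hp]
    have hlt : Nat.card U' < Nat.card U := by
      refine lt_of_le_of_ne (Subgroup.card_le_of_le inf_le_left) fun h ↦ hχτ ?_
      have hu : u ∈ U' := by
        rw [hU', Subgroup.eq_of_le_of_card_ge inf_le_left h.ge]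
        exact Subgroup.mem_zpowers u
      have h2 := congrArg Units.val (MonoidHom.mem_ker.mp (Subgroup.mem_inf.mp hu).2)
      simp only [f, MonoidHom.comp_apply, MulChar.coe_toUnitHom, Units.val_one] at h2
      exact h2
    let W : Nat.Primes → ℂ := fun p ↦ ((1 - θ : ℝ) : ℂ) * wt U' p + (θ : ℂ) * wt U p
    have hWB : WBounded W := ((hwtB U').const_mul _).add ((hwtB U).const_mul _)
    have hW : LogSum W (((1 - θ) * Nat.card U' + θ * Nat.card U : ℝ) : ℂ) := by
      have := LogSum.add ((hwtB U').const_mul _) ((hwtB U).const_mul _)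
        ((hwt U').const_mul ((1 - θ : ℝ) : ℂ)) ((hwt U).const_mul (θ : ℂ))
      simp only [W]
      push_cast at this ⊢
      exact this
    have hle : ∀ p, (P χ p).re ≤ (W p).re := by
      intro p
      by_cases hp : good p
      · have hU'p : conjCount U' (Fr p) = if f (Fr p) = 1 then conjCount U (Fr p) else 0 := by
          rw [hU', conjCount_inf_ker f U (Fr p)]
          congr
        have hiff : f (Fr p) = 1 ↔ χ ((p : ℕ) : ZMod m) = 1 := by
          rw [← hf p hp, Units.val_eq_one]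
        simp only [P, W, wt, if_pos hp, hU'p]
        simp only [Complex.mul_re, Complex.add_re, Complex.ofReal_re, Complex.ofReal_im,
          Complex.natCast_re, Complex.natCast_im, mul_zero, sub_zero]
        by_cases h1 : χ ((p : ℕ) : ZMod m) = 1
        · rw [if_pos (hiff.mpr h1), h1, Complex.one_re]; ring_nf; rfl
        · rw [if_neg (fun h ↦ h1 (hiff.mp h))]
          have hre : (χ ((p : ℕ) : ZMod m)).re ≤ θ := by
            refine Finset.le_max' _ _ ?_
            refine Finset.mem_insert_of_mem (Finset.mem_image.mpr ⟨cyc (Fr p), ?_, ?_⟩)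
            · simp [hgood_cyc p hp, h1]
            · rw [hgood_cyc p hp]
          rw [Nat.cast_zero, mul_zero, zero_add]
          exact mul_le_mul_of_nonneg_right hre (Nat.cast_nonneg _)
      · simp only [P, W, wt, if_neg hp, mul_zero, add_zero, le_refl]
    obtain ⟨w₀, hw₀⟩ := hW.re_tendsto
    set q : ℝ := (Nat.card U : ℝ) with hqdef
    have hq0 : 0 < q := by rw [hqdef]; exact_mod_cast Nat.card_pos
    set κ : ℝ := (1 - θ) * Nat.card U' + θ * q with hκ
    have hκq : 0 < q - κ := by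
      have : (Nat.card U' : ℝ) < q := by rw [hqdef]; exact_mod_cast hlt
      rw [hκ]
      nlinarith
    -- compare with `‖(s - 1) L‖ → ‖a‖`
    have hlog : Tendsto (fun s : ℝ ↦ (Φ χ s).re - logPole s) (𝓝[>] 1) (𝓝 (Real.log ‖a‖)) := by
      refine ((ha.norm).log (norm_ne_zero_iff.mpr ha0)).congr' ?_
      filter_upwards [hΦexp χ, Ioc_mem_nhdsGT_one] with s hs hs1
      have hpos : 0 < s - 1 := sub_pos.mpr hs1.1
      rw [hs, norm_mul, Complex.norm_exp, ← Complex.ofReal_one, ← Complex.ofReal_sub,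
        Complex.norm_real, Real.norm_of_nonneg hpos.le, Real.log_mul hpos.ne' (Real.exp_ne_zero _),
        Real.log_exp, logPole, Real.log_inv]
      ring
    have hbound : ∀ᶠ s in 𝓝[>] (1 : ℝ), q * ((Φ χ s).re - logPole s)
        + (q - κ) * logPole s ≤ (wSum W s).re - κ * logPole s + q * (R χ s).re := by
      filter_upwards [self_mem_nhdsWithin] with s hs
      have h1 := re_wSum_le (hPB χ) hWB hle (Set.mem_Ioi.mp hs)
      have h2 : (Φ χ s).re = q⁻¹ * (wSum (P χ) s).re + (R χ s).re := by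
        simp only [Φ, wSum_const_mul, Complex.add_re]
        rw [show (Nat.card U : ℂ)⁻¹ = ((q⁻¹ : ℝ) : ℂ) by rw [hqdef]; push_cast; rfl,
          Complex.re_ofReal_mul]
      have h3 : q * (Φ χ s).re = (wSum (P χ) s).re + q * (R χ s).re := by
        rw [h2]; field_simp
      nlinarith [h3]
    have htop : Tendsto (fun s : ℝ ↦ q * ((Φ χ s).re - logPole s) + (q - κ) * logPole s)
        (𝓝[>] 1) atTop :=
      (hlog.const_mul q).add_atTop (tendsto_logPole.const_mul_atTop hκq)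
    have hfin : Tendsto (fun s : ℝ ↦ (wSum W s).re - κ * logPole s + q * (R χ s).re) (𝓝[>] 1)
        (𝓝 (w₀ + q * (R χ 1).re)) :=
      hw₀.add (((Complex.continuous_re.tendsto _).comp (hRlim χ)).const_mul q)
    exact not_tendsto_atTop_of_tendsto_nhds hfin (tendsto_atTop_mono' _ hbound htop)
  choose! lv hlv using hlim
  -- their product has a nonzero limit
  have hqne : (Nat.card U : ℂ) ≠ 0 := Nat.cast_ne_zero.mpr Nat.card_pos.ne'
  have hXsplit : X₀ ∪ X₁ = X := Finset.filter_union_filter_not_eq _ _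
  have hdisj : Disjoint X₀ X₁ := Finset.disjoint_filter_filter_not _ _ _
  have hsum₁ : LogSum (fun p ↦ ∑ χ ∈ X₁, P χ p) 0 := by
    have hone : LogSum (fun p ↦ (m.totient : ℂ) / 2 * wt ⊥ p) ((m.totient : ℂ) / 2) := by
      simpa using (hwt ⊥).const_mul ((m.totient : ℂ) / 2)
    have h0 := LogSum.sum X₀ (fun χ _ ↦ hPB χ) hP₀
    rw [Finset.sum_const, nsmul_eq_mul, hcard] at h0
    have hb0 : WBounded fun p ↦ ∑ χ ∈ X₀, P χ p :=
      Finset.induction_on X₀ ⟨0, fun p ↦ by simp⟩ fun χ t hχ ih ↦ by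
        simpa [Finset.sum_insert hχ] using (hPB χ).add ih
    have h := LogSum.add ((hwtB ⊥).const_mul _) (hb0.const_mul (-1)) hone (h0.const_mul (-1))
    rw [show (m.totient : ℂ) / 2 + -1 * ((m.totient : ℂ) / 2) = 0 by ring] at h
    refine h.congr fun p ↦ ?_
    have hp1 := hproj 0 p
    rw [zpow_zero, Units.val_one] at hp1
    simp only [ZMod.inv_one, map_one, one_mul] at hp1
    rw [← hXsplit, Finset.sum_union hdisj] at hp1
    have hbot : (m.totient : ℂ) / 2 * wt ⊥ p
        = if ((p : ℕ) : ZMod m) = 1 then (m.totient : ℂ) / 2 * wt U p else 0 := by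
      by_cases hp : good p
      · have hker : U ⊓ cyc.ker = ⊥ := by
          rw [eq_bot_iff]
          exact fun g hg ↦ Subgroup.mem_bot.mpr
            (hinj g (Subgroup.mem_inf.mp hg).1 (MonoidHom.mem_ker.mp (Subgroup.mem_inf.mp hg).2))
        simp only [wt, if_pos hp]
        rw [← hker, conjCount_inf_ker cyc U (Fr p)]
        by_cases h1 : ((p : ℕ) : ZMod m) = 1
        · rw [if_pos h1, if_pos (Units.ext (by rw [hgood_cyc p hp, h1, Units.val_one]))]
        · rw [if_neg h1, if_neg (fun h ↦ h1 (by rw [← hgood_cyc p hp, h, Units.val_one]))]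
          simp
      · simp [wt, hp]
    rw [hbot]
    linear_combination -hp1
  have hne : ∀ χ ∈ X₁, lv χ ≠ 0 := by
    obtain ⟨z, hz⟩ := hsum₁
    have hΦsum : Tendsto (fun s ↦ ∑ χ ∈ X₁, Φ χ s) (𝓝[>] 1)
        (𝓝 ((Nat.card U : ℂ)⁻¹ * z + ∑ χ ∈ X₁, R χ 1)) := by
      refine ((hz.const_mul (Nat.card U : ℂ)⁻¹).add
        (tendsto_finsetSum _ fun χ _ ↦ hRlim χ)).congr' ?_
      filter_upwards [self_mem_nhdsWithin] with s hs
      simp only [Φ, Finset.sum_add_distrib, wSum_const_mul, ← Finset.mul_sum, zero_mul, sub_zero]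
      rw [wSum_finset_sum _ (fun χ _ ↦ hPB χ) hs]
    have h1 : Tendsto (fun s ↦ ∏ χ ∈ X₁, Complex.exp (Φ χ s)) (𝓝[>] 1)
        (𝓝 (Complex.exp ((Nat.card U : ℂ)⁻¹ * z + ∑ χ ∈ X₁, R χ 1))) := by
      simp only [← Complex.exp_sum]
      exact (Complex.continuous_exp.tendsto _).comp hΦsum
    have h2 := tendsto_finsetProd X₁ fun χ hχ ↦ hlv χ hχ
    exact Finset.prod_ne_zero_iff.mp (tendsto_nhds_unique h2 h1 ▸ Complex.exp_ne_zero _)
  have hP₁ : ∀ χ ∈ X₁, LogSum (P χ) 0 := by
    intro χ hχ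
    obtain ⟨z, hz⟩ := exists_tendsto_of_tendsto_exp (hΦc χ) (hne χ hχ) (hlv χ hχ)
    refine ⟨(Nat.card U : ℂ) * (z - R χ 1), ((hz.sub (hRlim χ)).const_mul _).congr fun s ↦ ?_⟩
    simp only [Φ, wSum_const_mul]
    field_simp
    ring
  -- conclusion: the class of `u`
  set c : Nat.Primes → ℂ := fun p ↦ (Nat.card {g : E ≃ₐ[ℚ] E // g⁻¹ * Fr p * g = u} : ℂ) with hc
  have hcB : WBounded c := ⟨Nat.card (E ≃ₐ[ℚ] E), fun p ↦ by
    rw [hc, Complex.norm_natCast]
    exact_mod_cast Nat.card_le_card_of_injective _ Subtype.val_injective⟩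
  have hclass : ∀ p, good p →
      (if ((p : ℕ) : ZMod m) = τ then wt U p else 0) = c p := by
    intro p hp
    have hmem : ∀ g : E ≃ₐ[ℚ] E, g⁻¹ * Fr p * g = u → ((p : ℕ) : ZMod m) = τ := fun g hg ↦ by
      rw [hτ, ← hgood_cyc p hp, ← map_conj_eq cyc (Fr p) g, hg]
    split_ifs with h1
    · simp only [wt, if_pos hp, hc, conjCount]
      refine congrArg (Nat.cast : ℕ → ℂ) (Nat.card_congr (Equiv.subtypeEquivRight fun g ↦ ?_))
      refine ⟨fun hg ↦ ?_, fun hg ↦ hg ▸ Subgroup.mem_zpowers u⟩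
      have h2 : cyc (g⁻¹ * Fr p * g * u⁻¹) = 1 := by
        rw [map_mul, map_conj_eq, map_inv, mul_inv_eq_one]
        exact Units.ext (by rw [hgood_cyc p hp, h1, hτ])
      have h3 := hinj _ (Subgroup.mul_mem _ hg
        (Subgroup.inv_mem _ (Subgroup.mem_zpowers u))) h2
      rwa [mul_inv_eq_one] at h3
    · have : IsEmpty {g : E ≃ₐ[ℚ] E // g⁻¹ * Fr p * g = u} := ⟨fun g ↦ h1 (hmem g.1 g.2)⟩
      simp [hc]
  have hfinal : LogSum (fun p ↦ ∑ χ ∈ X, χ τ⁻¹ * P χ p) ((X₀.card : ℂ) * Nat.card U) := by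
    have h0 : ∀ χ ∈ X₀, χ τ⁻¹ = 1 := fun χ hχ ↦ by
      have h1 := (Finset.mem_filter.mp hχ).2
      have h3 : χ τ⁻¹ * χ τ = 1 := by
        rw [← map_mul, hτ, ZMod.inv_coe_unit, Units.inv_mul, map_one]
      rwa [h1, mul_one] at h3
    have h := LogSum.sum X (k := fun χ ↦ if χ τ = 1 then (Nat.card U : ℂ) else 0)
      (w := fun χ p ↦ χ τ⁻¹ * P χ p) (fun χ _ ↦ (hPB χ).const_mul _) fun χ hχ ↦ by
        by_cases h1 : χ τ = 1
        · rw [if_pos h1]
          have hmem : χ ∈ X₀ := Finset.mem_filter.mpr ⟨hχ, h1⟩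
          simpa [h0 χ hmem] using (hP₀ χ hmem).const_mul 1
        · rw [if_neg h1]
          simpa using (hP₁ χ (Finset.mem_filter.mpr ⟨hχ, h1⟩)).const_mul (χ τ⁻¹)
    rwa [← Finset.sum_filter, ← hX₀, Finset.sum_const, nsmul_eq_mul] at h
  rw [hcard] at hfinal
  have htot : ((m.totient : ℂ) / 2) ≠ 0 := div_ne_zero
    (Nat.cast_ne_zero.mpr (Nat.totient_pos.mpr (NeZero.pos m)).ne') two_ne_zero
  have hwtau : LogSum (fun p ↦ if ((p : ℕ) : ZMod m) = τ then wt U p else 0) 1 := by
    have h := hfinal.const_mul ((m.totient : ℂ) / 2)⁻¹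
    rw [inv_mul_cancel₀ htot] at h
    refine h.congr fun p ↦ ?_
    have hp1 := hproj 1 p
    rw [zpow_one, ← hτ] at hp1
    rw [hp1]
    split_ifs
    · rw [← mul_assoc, inv_mul_cancel₀ htot, one_mul]
    · rw [mul_zero]
  have hfin : {p : Nat.Primes | c p - (if ((p : ℕ) : ZMod m) = τ then wt U p else 0) ≠ 0}.Finite :=
    hbadfin.subset fun p hp hg ↦ hp (by rw [hclass p hg, sub_self])
  have hwB : WBounded fun p : Nat.Primes ↦ if ((p : ℕ) : ZMod m) = τ then wt U p else 0 := by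
    obtain ⟨C, hC⟩ := hwtB U
    refine ⟨max C 0, fun p ↦ ?_⟩
    dsimp only
    split_ifs
    · exact (hC p).trans (le_max_left _ _)
    · simp
  have h := LogSum.add hwB (WBounded.of_finite hfin) hwtau (LogSum.of_finite hfin)
  rw [add_zero] at h
  exact h.congr fun p ↦ add_sub_cancel _ _

end Fermat.Agent.Row48

end
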