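import Fermat.Agent.Row48.Defs
import Fermat.Prelude.Def_FLTPrelim_Modularity

/-!
# The Rankin bound in weight one

`‖g τ‖ ≤ C / (Im τ) ^ (1 / 2)` and Parseval on a horizontal segment bound the partial sums of the
squares of the coefficients by a multiple of their length; for a multiplicative sequence this
bounds the truncated second moment over the primes.
-/

set_option autoImplicit false

noncomputable section

open CongruenceSubgroup UpperHalfPlane MeasureTheory Filter ModularFormClass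
open scoped MatrixGroups Real

namespace Fermat.Agent.Row48

variable {N' : ℕ} [NeZero N']

/-- Parseval on the segment at height `t`: a bound on the damped sum of the squares. -/
theorem exists_damped_sq_bound (g : CuspForm (Gamma1 N') 1) :
    ∃ C : ℝ, 0 ≤ C ∧ ∀ t : ℝ, 0 < t → ∀ A : Finset ℕ,
      ∑ n ∈ A, ‖qCoeff g n‖ ^ 2 * Real.exp (-4 * π * n * t) ≤ C / t := by
  obtain ⟨C, hC⟩ :=
    CuspFormClass.exists_bound (k := 1) (Γ := (Gamma1 N' : Subgroup (GL (Fin 2) ℝ))) g
  refine ⟨C ^ 2, sq_nonneg C, fun t ht A => ?_⟩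
  let F : ℝ → ℂ := fun x => g ⟨(x : ℂ) + t * Complex.I, by simpa using ht⟩
  have hbd : ∀ x, ‖F x‖ ^ 2 ≤ C ^ 2 / t := by
    intro x
    have h := hC ⟨(x : ℂ) + t * Complex.I, by simpa using ht⟩
    have him : (⟨(x : ℂ) + t * Complex.I, by simpa using ht⟩ : ℍ).im = t := by
      simp [← UpperHalfPlane.coe_im]
    rw [him] at h
    have h2 := pow_le_pow_left₀ (norm_nonneg _) h 2
    refine h2.trans (le_of_eq ?_)
    rw [div_pow, ← Real.rpow_natCast (t ^ _) 2, ← Real.rpow_mul ht.le]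
    norm_num
  have hcont : Continuous F := by
    refine (ModularFormClass.holo g).continuous.comp ?_
    rw [UpperHalfPlane.isEmbedding_coe.continuous_iff]
    simp only [Function.comp_def]
    fun_prop
  have hL2 : MemLp F 2 (volume.restrict (Set.Ioc 0 1)) := by
    refine MemLp.of_bound hcont.aestronglyMeasurable (√(C ^ 2 / t)) (ae_of_all _ fun x => ?_)
    exact Real.le_sqrt_of_sq_le (hbd x)
  have hper : (1 : ℝ) ∈ (Gamma1 N' : Subgroup (GL (Fin 2) ℝ)).strictPeriods := by simp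
  have hcoef : ∀ n : ℕ,
      ‖fourierCoeffOn zero_lt_one F (n : ℤ)‖ ^ 2 =
        ‖qCoeff g n‖ ^ 2 * Real.exp (-4 * π * n * t) := by
    intro n
    have hq : fourierCoeffOn zero_lt_one F (n : ℤ) =
        qCoeff g n * (Real.exp (-2 * π * n * t) : ℂ) := by
      rw [fourierCoeffOn_eq_integral, qCoeff,
        ModularFormClass.qExpansion_coeff_eq_intervalIntegral g one_pos hper n ht]
      simp only [sub_zero, Complex.ofReal_one, div_one, one_mul, one_smul]
      rw [← intervalIntegral.integral_mul_const]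
      refine intervalIntegral.integral_congr fun x _ => ?_
      simp only [smul_eq_mul, fourier_coe_apply, F]
      have key : Complex.exp (2 * π * Complex.I * x * ((-(n : ℤ) : ℤ) : ℂ) / ((1 - 0 : ℝ) : ℂ)) =
          1 / Function.Periodic.qParam 1 ((x : ℂ) + t * Complex.I) ^ n *
            (Real.exp (-2 * π * n * t) : ℂ) := by
        rw [one_div, Function.Periodic.qParam, ← Complex.exp_nat_mul, ← Complex.exp_neg,
          Complex.ofReal_exp, ← Complex.exp_add]
        congr 1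
        push_cast
        linear_combination (2 * π * n * t : ℂ) * Complex.I_sq
      simp only [sub_zero, Complex.ofReal_one, div_one] at key ⊢
      rw [show (2 * π * Complex.I * ((-(n : ℤ) : ℤ) : ℂ) * x : ℂ) =
        2 * π * Complex.I * x * ((-(n : ℤ) : ℤ) : ℂ) by ring, key]
      ring
    rw [hq, norm_mul, mul_pow, Complex.norm_real, Real.norm_eq_abs, sq_abs, ← Real.exp_nat_mul]
    ring_nf
  have hsum := hasSum_sq_fourierCoeffOn zero_lt_one hL2
  calc ∑ n ∈ A, ‖qCoeff g n‖ ^ 2 * Real.exp (-4 * π * n * t)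
      = ∑ i ∈ A.map Nat.castEmbedding, ‖fourierCoeffOn zero_lt_one F i‖ ^ 2 := by
        rw [Finset.sum_map]
        exact Finset.sum_congr rfl fun n _ => (hcoef n).symm
    _ ≤ (1 - 0 : ℝ)⁻¹ • ∫ x in (0 : ℝ)..1, ‖F x‖ ^ 2 :=
        sum_le_hasSum _ (fun _ _ => sq_nonneg _) hsum
    _ ≤ C ^ 2 / t := by
        rw [sub_zero, inv_one, one_smul]
        refine (intervalIntegral.integral_mono zero_le_one
          ((hcont.norm.pow 2).intervalIntegrable _ _) intervalIntegrable_const hbd).trans ?_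
        simp

/-- The partial sums of the squares of the coefficients grow at most linearly. -/
theorem exists_sq_partial_bound (g : CuspForm (Gamma1 N') 1) :
    ∃ C : ℝ, 0 ≤ C ∧ ∀ X : ℕ, 0 < X → ∀ A : Finset ℕ, (∀ n ∈ A, n ≤ X) →
      ∑ n ∈ A, ‖qCoeff g n‖ ^ 2 ≤ C * X := by
  obtain ⟨C, hC0, hC⟩ := exists_damped_sq_bound g
  refine ⟨Real.exp (4 * π) * C, by positivity, fun X hX A hA => ?_⟩
  have hX' : (0 : ℝ) < X := by exact_mod_cast hX
  have h := hC (1 / X) (by positivity) A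
  rw [div_div_eq_mul_div, div_one] at h
  refine le_trans ?_ (le_of_le_of_eq (mul_le_mul_of_nonneg_left h (Real.exp_pos (4 * π)).le)
    (mul_assoc _ _ _).symm)
  rw [Finset.mul_sum]
  refine Finset.sum_le_sum fun n hn => ?_
  rw [mul_left_comm, ← Real.exp_add]
  refine le_mul_of_one_le_right (sq_nonneg _) (Real.one_le_exp ?_)
  have hnX : (n : ℝ) / X ≤ 1 := (div_le_one hX').mpr (by exact_mod_cast hA n hn)
  have := Real.pi_pos
  rw [show 4 * π + -4 * π * n * (1 / X) = 4 * π * (1 - (n : ℝ) / X) by ring]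
  nlinarith

/-- The Dirichlet series of the squares has at most a simple pole at one. -/
theorem exists_rankin_bound (g : CuspForm (Gamma1 N') 1) :
    ∃ B : ℝ, 0 < B ∧ ∀ s ∈ Set.Ioc (1 : ℝ) 2, ∀ A : Finset ℕ, 0 ∉ A →
      ∑ n ∈ A, ‖qCoeff g n‖ ^ 2 * (n : ℝ) ^ (-s) ≤ B / (s - 1) := by
  obtain ⟨C, hC0, hC⟩ := exists_sq_partial_bound g
  refine ⟨4 * C + 1, by positivity, fun s hs A hA => ?_⟩
  set r : ℝ := 2 ^ (1 - s)
  have hu : 0 < s - 1 := sub_pos.mpr hs.1
  have hr : r ≤ 1 - (s - 1) / 2 := by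
    have h := _root_.rpow_one_add_le_one_add_mul_self (s := -(1 / 2)) (by norm_num) hu.le
      (by linarith [hs.2] : s - 1 ≤ 1)
    have e : (1 + -(1 / 2) : ℝ) ^ (s - 1) = r := by
      rw [show (1 + -(1 / 2) : ℝ) = (2 : ℝ)⁻¹ by norm_num, Real.inv_rpow zero_le_two,
        ← Real.rpow_neg zero_le_two, neg_sub]
    linarith [e ▸ h]
  have hr0 : 0 < r := by positivity
  set K := A.sup Nat.log2 + 1
  have hblock : ∀ k : ℕ, ∑ n ∈ A with Nat.log 2 n = k, ‖qCoeff g n‖ ^ 2 * (n : ℝ) ^ (-s) ≤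
      2 * C * r ^ k := by
    intro k
    have hmem : ∀ n ∈ A.filter (fun n => Nat.log 2 n = k), 2 ^ k ≤ n ∧ n ≤ 2 ^ (k + 1) := by
      intro n hn
      obtain ⟨hnA, rfl⟩ := Finset.mem_filter.mp hn
      exact ⟨Nat.pow_log_le_self 2 fun h => hA (h ▸ hnA),
        (Nat.lt_pow_succ_log_self one_lt_two n).le⟩
    calc ∑ n ∈ A with Nat.log 2 n = k, ‖qCoeff g n‖ ^ 2 * (n : ℝ) ^ (-s)
        ≤ ∑ n ∈ A with Nat.log 2 n = k, ‖qCoeff g n‖ ^ 2 * ((2 : ℝ) ^ k) ^ (-s) := by
          refine Finset.sum_le_sum fun n hn => mul_le_mul_of_nonneg_left ?_ (sq_nonneg _)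
          exact Real.rpow_le_rpow_of_nonpos (by positivity) (by exact_mod_cast (hmem n hn).1)
            (by linarith [hs.1])
      _ ≤ C * ((2 ^ (k + 1) : ℕ) : ℝ) * ((2 : ℝ) ^ k) ^ (-s) := by
          rw [← Finset.sum_mul]
          exact mul_le_mul_of_nonneg_right
            (hC _ (by positivity) _ fun n hn => (hmem n hn).2) (by positivity)
      _ = 2 * C * r ^ k := by
          push_cast
          rw [show r ^ k = (2 : ℝ) ^ k * ((2 : ℝ) ^ k) ^ (-s) by
            rw [← Real.rpow_natCast r k, ← Real.rpow_natCast (2 : ℝ) k, ← Real.rpow_mul zero_le_two,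
              ← Real.rpow_mul zero_le_two, ← Real.rpow_add two_pos]
            ring_nf]
          ring
  have hlog : ∀ n ∈ A, Nat.log 2 n ∈ Finset.range K := fun n hn => by
    rw [Finset.mem_range, Nat.lt_succ_iff, ← Nat.log2_eq_log_two]
    exact Finset.le_sup hn
  calc ∑ n ∈ A, ‖qCoeff g n‖ ^ 2 * (n : ℝ) ^ (-s)
      = ∑ k ∈ Finset.range K, ∑ n ∈ A with Nat.log 2 n = k, ‖qCoeff g n‖ ^ 2 * (n : ℝ) ^ (-s) :=
        (Finset.sum_fiberwise_of_maps_to hlog _).symm
    _ ≤ ∑ k ∈ Finset.range K, 2 * C * r ^ k := Finset.sum_le_sum fun k _ => hblock k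
    _ ≤ 2 * C * (1 - r)⁻¹ := by
        rw [← Finset.mul_sum, ← tsum_geometric_of_lt_one hr0.le (by linarith)]
        exact mul_le_mul_of_nonneg_left ((summable_geometric_of_lt_one hr0.le
          (by linarith)).sum_le_tsum _ fun _ _ => by positivity) (by positivity)
    _ ≤ (4 * C + 1) / (s - 1) := by
        rw [← div_eq_mul_inv, div_le_div_iff₀ (by linarith) hu]
        nlinarith

/-- **The prime bound** for a weight one cusp form with multiplicative coefficients. -/
theorem primeBound_qCoeff (g : CuspForm (Gamma1 N') 1) (N : ℕ) (b : ℕ → ℂ) (hb : b = qCoeff g)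
    (hb1 : b 1 = 1)
    (hmul : ∀ p : ℕ, p.Prime → ¬ p ∣ N → ∀ n : ℕ, ¬ p ∣ n → b (p * n) = b p * b n) :
    PrimeBound N b := by
  classical
  obtain ⟨B, hB, hBA⟩ := exists_rankin_bound g
  intro M
  set M' := max M 0
  set Z := ∑' n : ℕ, ((n : ℝ) ^ (2 : ℕ))⁻¹
  have hZ : Summable fun n : ℕ => ((n : ℝ) ^ (2 : ℕ))⁻¹ := Real.summable_nat_pow_inv.mpr one_lt_two
  refine ⟨Real.log B + M' ^ 2 / 2 * Z, fun s hs => ?_⟩
  have hu : 0 < s - 1 := sub_pos.mpr hs.1
  set S := {q : Nat.Primes | ¬ (q : ℕ) ∣ N}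
  let w : Nat.Primes → ℝ :=
    S.indicator fun q => min (‖b q‖ ^ 2) M' * ((q : ℕ) : ℝ) ^ (-s)
  have hw0 : ∀ q, 0 ≤ w q := Set.indicator_nonneg fun q _ =>
    mul_nonneg (le_min (sq_nonneg _) (le_max_right _ _)) (by positivity)
  have hsum : ∀ v : Finset Nat.Primes, ∑ q ∈ v, w q ≤
      poleLog s + (Real.log B + M' ^ 2 / 2 * Z) := by
    intro v
    let c : ℕ → ℝ := fun p => ‖b p‖ ^ 2 * (p : ℝ) ^ (-s)
    let W : ℕ → ℝ := fun p => min (‖b p‖ ^ 2) M' * (p : ℝ) ^ (-s)
    set P : Finset ℕ := (v.filter fun q : Nat.Primes => ¬ (q : ℕ) ∣ N).image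
      fun q : Nat.Primes => (q : ℕ) with hPdef
    have hP : ∀ p ∈ P, p.Prime ∧ ¬ p ∣ N := by
      intro p hp
      obtain ⟨q, hq, rfl⟩ := Finset.mem_image.mp hp
      exact ⟨q.2, (Finset.mem_filter.mp hq).2⟩
    have hW0 : ∀ p ∈ P, 0 ≤ W p := fun p _ =>
      mul_nonneg (le_min (sq_nonneg _) (le_max_right _ _)) (by positivity)
    have hWc : ∀ p, W p ≤ c p := fun p =>
      mul_le_mul_of_nonneg_right (min_le_left _ _) (by positivity)
    have hterm : ∀ T : Finset ℕ, T ⊆ P → ∏ p ∈ T, c p =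
        ‖b (∏ p ∈ T, p)‖ ^ 2 * ((∏ p ∈ T, p : ℕ) : ℝ) ^ (-s) := by
      intro T
      induction T using Finset.induction_on with
      | empty => intro _; simp [hb1]
      | insert p T hpT ih =>
        intro hT
        obtain ⟨hp, hpN⟩ := hP p (hT (Finset.mem_insert_self p T))
        have hnd : ¬ p ∣ ∏ x ∈ T, x := fun hd => by
          obtain ⟨x, hx, hpx⟩ := ((Nat.prime_iff.mp hp).dvd_finsetProd_iff _).mp hd
          exact hpT ((Nat.prime_dvd_prime_iff_eq hp (hP x (hT (Finset.mem_insert_of_mem hx))).1).mp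
            hpx ▸ hx)
        rw [Finset.prod_insert hpT, Finset.prod_insert hpT,
          ih ((Finset.subset_insert p T).trans hT), hmul p hp hpN _ hnd, norm_mul, mul_pow,
          Nat.cast_mul, Real.mul_rpow (Nat.cast_nonneg _) (Nat.cast_nonneg _)]
        ring
    have hinj : Set.InjOn (fun T : Finset ℕ => ∏ p ∈ T, p) ↑P.powerset := by
      intro T hT T' hT' he
      have h1 := Nat.primeFactors_prod fun p hp => (hP p (Finset.mem_powerset.mp hT hp)).1
      have h2 := Nat.primeFactors_prod fun p hp => (hP p (Finset.mem_powerset.mp hT' hp)).1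
      simp only at he
      rw [← h1, ← h2, he]
    have hprod : ∏ p ∈ P, (1 + W p) ≤ B / (s - 1) := by
      refine (Finset.prod_le_prod (fun p hp => by linarith [hW0 p hp])
        fun p _ => by linarith [hWc p]).trans (le_of_eq_of_le (?_ : ∏ p ∈ P, (1 + c p) = _)
          (hBA s hs (P.powerset.image fun T => ∏ p ∈ T, p) fun h0 => ?_))
      · rw [Finset.prod_one_add, Finset.sum_image hinj]
        exact Finset.sum_congr rfl fun T hT => (hterm T (Finset.mem_powerset.mp hT)).trans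
          (by rw [hb])
      · obtain ⟨T, hT, he⟩ := Finset.mem_image.mp h0
        exact Finset.prod_ne_zero_iff.mpr
          (fun p hp => (hP p (Finset.mem_powerset.mp hT hp)).1.ne_zero) he
    have hlin : ∀ p ∈ P, W p ≤ Real.log (1 + W p) + M' ^ 2 / 2 * ((p : ℝ) ^ (2 : ℕ))⁻¹ := by
      intro p hp
      have h1 := Real.le_log_one_add_of_nonneg (hW0 p hp)
      have h2 : W p - W p ^ 2 / 2 ≤ 2 * W p / (W p + 2) := by
        rw [le_div_iff₀ (by linarith [hW0 p hp])]
        nlinarith [pow_nonneg (hW0 p hp) 3]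
      have hp1 : (1 : ℝ) ≤ p := by exact_mod_cast (hP p hp).1.one_le
      have h3 : W p ≤ M' * (p : ℝ)⁻¹ := by
        refine mul_le_mul (min_le_right _ _) ?_ (by positivity) (le_max_right _ _)
        rw [← Real.rpow_neg_one]
        exact Real.rpow_le_rpow_of_exponent_le hp1 (by linarith [hs.1])
      have h4 : W p ^ 2 ≤ M' ^ 2 * ((p : ℝ) ^ (2 : ℕ))⁻¹ := by
        rw [← inv_pow, ← mul_pow]
        exact pow_le_pow_left₀ (hW0 p hp) h3 2
      linarith
    calc ∑ q ∈ v, w q = ∑ p ∈ P, W p := by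
          rw [hPdef, Finset.sum_image (g := fun q : Nat.Primes => (q : ℕ))
            (fun q _ q' _ he => Subtype.ext he), Finset.sum_filter]
          exact Finset.sum_congr rfl fun q _ => Set.indicator_apply _ _ _
      _ ≤ ∑ p ∈ P, (Real.log (1 + W p) + M' ^ 2 / 2 * ((p : ℝ) ^ (2 : ℕ))⁻¹) :=
          Finset.sum_le_sum hlin
      _ ≤ poleLog s + (Real.log B + M' ^ 2 / 2 * Z) := by
          rw [Finset.sum_add_distrib, ← Real.log_prod fun p hp => by linarith [hW0 p hp],
            ← Finset.mul_sum]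
          have hpos : 0 < ∏ p ∈ P, (1 + W p) :=
            Finset.prod_pos fun p hp => by linarith [hW0 p hp]
          have hlog : Real.log (∏ p ∈ P, (1 + W p)) ≤ Real.log B + poleLog s := by
            rw [poleLog, ← Real.log_mul hB.ne' (inv_ne_zero hu.ne'), ← div_eq_mul_inv]
            exact Real.log_le_log hpos hprod
          have hZle : M' ^ 2 / 2 * ∑ p ∈ P, ((p : ℝ) ^ (2 : ℕ))⁻¹ ≤ M' ^ 2 / 2 * Z :=
            mul_le_mul_of_nonneg_left (hZ.sum_le_tsum P fun _ _ => by positivity) (by positivity)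
          linarith
  have hwsum : Summable w := summable_of_sum_le hw0 hsum
  refine le_trans ?_ (hwsum.tsum_le_of_sum_le hsum)
  have hle : ∀ q, S.indicator (fun q => min (‖b q‖ ^ 2) M * ((q : ℕ) : ℝ) ^ (-s)) q ≤ w q :=
    fun q => Set.indicator_le_indicator
      (mul_le_mul_of_nonneg_right (min_le_min_left _ (le_max_left _ _)) (by positivity))
  refine Summable.tsum_le_tsum hle ?_ hwsum
  refine (((Nat.Primes.summable_rpow (r := -s)).mpr (by linarith [hs.1])).mul_left
    (|M|)).of_norm_bounded fun q => ?_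
  rw [Real.norm_eq_abs]
  by_cases hq : q ∈ S
  · rw [Set.indicator_of_mem hq, abs_mul, abs_of_nonneg (Real.rpow_nonneg (Nat.cast_nonneg _) _)]
    refine mul_le_mul_of_nonneg_right ?_ (by positivity)
    rcases le_total (‖b q‖ ^ 2) M with h | h
    · rw [min_eq_left h, abs_of_nonneg (sq_nonneg _)]
      exact h.trans (le_abs_self M)
    · rw [min_eq_right h]
  · rw [Set.indicator_of_notMem hq, abs_zero]
    positivity

end Fermat.Agent.Row48

end
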