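import Mathlib
import Fermat.Prelude.Def_GaloisRep_Residual
import Fermat.Prelude.Def_Deformations_MatrixRepresentation

/-!
# Interfaces for the Deligne–Serre theorem in weight one

`N` is the bad modulus, `ε` the nebentypus and `a` the coefficient sequence. The proof is cut at
the properties below: analytic prime bound, coefficient field, residual representations and the
lower bound form of the Chebotarev density theorem.
-/

set_option autoImplicit false

noncomputable section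

namespace Fermat.Agent.Row48

local notation "Γℚ" => (AlgebraicClosure ℚ ≃ₐ[ℚ] AlgebraicClosure ℚ)

/-- `log (1 / (s - 1))`. -/
def poleLog (s : ℝ) : ℝ := Real.log (s - 1)⁻¹

/-- The weight `p ^ (-s)` summed over the primes satisfying `P`. -/
def primeWeight (P : ℕ → Prop) (s : ℝ) : ℝ :=
  ∑' p : Nat.Primes, Set.indicator {q : Nat.Primes | P q} (fun q ↦ ((q : ℕ) : ℝ) ^ (-s)) p

/-- Consequence of the Rankin bound: truncated second moments at primes prime to `N`. -/
def PrimeBound (N : ℕ) (b : ℕ → ℂ) : Prop :=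
  ∀ M : ℝ, ∃ C : ℝ, ∀ s ∈ Set.Ioc (1 : ℝ) 2,
    ∑' p : Nat.Primes, Set.indicator {q : Nat.Primes | ¬ (q : ℕ) ∣ N}
        (fun q ↦ min (‖b q‖ ^ 2) M * ((q : ℕ) : ℝ) ^ (-s)) p ≤ poleLog s + C

/-- Integrality, coefficient field and the prime bound for every conjugate. -/
structure Coefficients (N : ℕ) (ε : DirichletCharacter ℂ N) (a : ℕ → ℂ) : Prop where
  isIntegral : ∀ p : ℕ, p.Prime → ¬ p ∣ N → IsIntegral ℤ (a p)
  exists_field : ∃ K : IntermediateField ℚ ℂ, FiniteDimensional ℚ K ∧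
    (∀ p : ℕ, p.Prime → ¬ p ∣ N → a p ∈ K ∧ ε (p : ZMod N) ∈ K) ∧
    ∀ σ : K →+* ℂ, ∃ b : ℕ → ℂ, PrimeBound N b ∧
      ∀ p : ℕ, p.Prime → ¬ p ∣ N → ∀ x : K, (x : ℂ) = a p → b p = σ x

/-- Outside a set of primes of upper density `η` the values lie in a finite set of algebraic
integers. -/
def ExceptionBound (N : ℕ) (a : ℕ → ℂ) : Prop :=
  ∀ η : ℝ, 0 < η → ∃ Y : Finset ℂ, (∀ y ∈ Y, IsIntegral ℤ y) ∧
    ∃ C : ℝ, ∀ s ∈ Set.Ioc (1 : ℝ) 2,
      primeWeight (fun p ↦ ¬ p ∣ N ∧ a p ∉ Y) s ≤ η * poleLog s + C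

/-- Semisimple residual representations for arbitrarily large residue characteristics. -/
def ResidualReps (N : ℕ) (ε : DirichletCharacter ℂ N) (a : ℕ → ℂ) : Prop :=
  ∀ B : ℕ, ∃ ℓ : ℕ, B < ℓ ∧ ℓ.Prime ∧ ∃ A : ValuationSubring ℂ, (ℓ : ℂ) ∈ A.nonunits ∧
    ∃ ρ : Γℚ →* GL (Fin 2) (IsLocalRing.ResidueField A),
      GaloisFactorsThroughFiniteLevel ρ ∧
      (Deformation.matrixRepresentation ρ).IsSemisimpleRepresentation ∧
      ∀ p : ℕ, p.Prime → ¬ p ∣ N * ℓ →
        ∀ P : ValuationSubring (AlgebraicClosure ℚ), P.LiesOverPrime p →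
          (∀ σ ∈ P.inertiaSubgroupIn ℚ, ρ σ = 1) ∧
          ∀ σ : Γℚ, P.IsFrobeniusAt σ p → ∀ x y : A, (x : ℂ) = a p →
            (y : ℂ) = ε (p : ZMod N) →
              (ρ σ : Matrix (Fin 2) (Fin 2) (IsLocalRing.ResidueField A)).trace =
                  IsLocalRing.residue A x ∧
                (ρ σ : Matrix (Fin 2) (Fin 2) (IsLocalRing.ResidueField A)).det =
                  IsLocalRing.residue A y

/-- Lower bound form of the Chebotarev density theorem. -/
def DensityLower : Prop :=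
  ∀ (G : Type) [Group G] [Finite G] (π : Γℚ →* G), Function.Surjective π →
    GaloisFactorsThroughFiniteLevel π → ∀ (T : Set G) (S : Finset ℕ),
      (∀ g h : G, h ∈ T → g * h * g⁻¹ ∈ T) → ∀ η : ℝ, 0 < η → ∃ C : ℝ,
        ∀ s ∈ Set.Ioc (1 : ℝ) 2,
          ((Nat.card T : ℝ) / Nat.card G - η) * poleLog s - C ≤
            primeWeight (fun p ↦ p ∉ S ∧ ∃ P : ValuationSubring (AlgebraicClosure ℚ),
              P.LiesOverPrime p ∧ ∃ σ : Γℚ, P.IsFrobeniusAt σ p ∧ π σ ∈ T) s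

end Fermat.Agent.Row48

end
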