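import Fermat.Agent.Row48.Defs
import Fermat.Agent.Row48.ClassDensity
import Fermat.Agent.Chebotarev.Main

/-!
# Chebotarev, lower density form

Almost all elements of `Gal(K(ζ_{4p})/ℚ)` are cyclotomically separated when `p - 1` is divisible by
a large power of `4 [K : ℚ]`; for these the density of the conjugacy class is known.
-/

set_option autoImplicit false

noncomputable section

namespace Fermat.Agent.Row48

open NumberField Filter Topology
open Fermat.Agent.Chebotarev
open scoped Pointwise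

local notation "Ω" => AlgebraicClosure ℚ
local notation "Γ" => (AlgebraicClosure ℚ) ≃ₐ[ℚ] (AlgebraicClosure ℚ)

attribute [local instance] Chebotarev.isAlgebraicQbar_cheb Chebotarev.isAlgClosureQbar_cheb

/-- The preimage of a set under a surjective homomorphism. -/
theorem card_preimage_eq {A B : Type*} [Group A] [Group B] (f : A →* B)
    (hf : Function.Surjective f) (T : Set B) :
    Nat.card (f ⁻¹' T) = Nat.card T * Nat.card f.ker := by
  rw [← Nat.card_prod]
  let s := Function.surjInv hf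
  have hs : ∀ b, f (s b) = b := Function.surjInv_eq hf
  refine Nat.card_congr
    { toFun := fun a => (⟨f a.1, a.2⟩, ⟨(s (f a.1))⁻¹ * a.1, by
        rw [MonoidHom.mem_ker, map_mul, map_inv, hs, inv_mul_cancel]⟩)
      invFun := fun q => ⟨s q.1.1 * q.2.1, by
        show f _ ∈ T
        rw [map_mul, hs, MonoidHom.mem_ker.mp q.2.2, mul_one]; exact q.1.2⟩
      left_inv := fun a => Subtype.ext (by simp)
      right_inv := fun q => ?_ }
  have h : f (s q.1.1 * q.2.1) = q.1.1 := by
    rw [map_mul, hs, MonoidHom.mem_ker.mp q.2.2, mul_one]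
  refine Prod.ext (Subtype.ext h) (Subtype.ext ?_)
  simp [h]

/-- Few elements of a cyclic group of order divisible by `q ^ (k + 1)` have order not divisible
by `q`. -/
theorem card_not_dvd_orderOf_le {A : Type*} [CommGroup A] [Finite A] [IsCyclic A] {q k : ℕ}
    (hq : q ≠ 0) (hn : q ^ (k + 1) ∣ Nat.card A) :
    Nat.card {x : A | ¬ q ∣ orderOf x} * 2 ^ k ≤ q * Nat.card A := by
  classical
  have := Fintype.ofFinite A
  set n := Nat.card A with hnA
  have hn0 : n ≠ 0 := Nat.card_pos.ne'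
  have hsub : {x : A | ¬ q ∣ orderOf x}.toFinset ⊆ q.primeFactors.biUnion fun l =>
      Finset.univ.filter fun x : A => x ^ (n / l ^ k) = 1 := by
    intro x hx
    rw [Set.mem_toFinset] at hx
    have ho : orderOf x ≠ 0 := (orderOf_pos x).ne'
    have hx' : ¬ q.factorization ≤ (orderOf x).factorization := fun h =>
      hx ((Nat.factorization_le_iff_dvd hq ho).mp h)
    rw [Finsupp.le_def, not_forall] at hx'
    obtain ⟨l, hl⟩ := hx'
    rw [not_le] at hl
    have hlq : l ∈ q.primeFactors := by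
      rw [← Nat.support_factorization, Finsupp.mem_support_iff]; omega
    have hlp := Nat.prime_of_mem_primeFactors hlq
    have hnl : (k + 1) * q.factorization l ≤ n.factorization l := by
      have h := (Nat.factorization_le_iff_dvd (pow_ne_zero _ hq) hn0).mpr hn l
      simpa [Nat.factorization_pow] using h
    have hdvd : orderOf x * l ^ k ∣ n := by
      rw [← Nat.factorization_le_iff_dvd (mul_ne_zero ho (pow_ne_zero _ hlp.ne_zero)) hn0,
        Nat.factorization_mul ho (pow_ne_zero _ hlp.ne_zero), Finsupp.le_def]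
      intro r
      have h0 := (Nat.factorization_le_iff_dvd ho hn0).mpr (orderOf_dvd_natCard x) r
      rw [Finsupp.add_apply, hlp.factorization_pow, Finsupp.single_apply]
      split_ifs with hr
      · subst hr; nlinarith
      · simpa using h0
    refine Finset.mem_biUnion.mpr ⟨l, hlq, Finset.mem_filter.mpr ⟨Finset.mem_univ _,
      orderOf_dvd_iff_pow_eq_one.mp ?_⟩⟩
    exact Nat.dvd_div_of_mul_dvd (by rwa [mul_comm])
  have h1 : Nat.card {x : A | ¬ q ∣ orderOf x} ≤ ∑ l ∈ q.primeFactors, n / l ^ k := by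
    rw [Nat.card_eq_card_toFinset]
    refine (Finset.card_le_card hsub).trans (Finset.card_biUnion_le.trans
      (Finset.sum_le_sum fun l hl => IsCyclic.card_pow_eq_one_le ?_))
    have hlp := Nat.prime_of_mem_primeFactors hl
    exact Nat.div_pos (Nat.le_of_dvd (Nat.pos_of_ne_zero hn0) ((pow_dvd_pow l (Nat.le_succ k)).trans
      ((pow_dvd_pow_of_dvd (Nat.dvd_of_mem_primeFactors hl) _).trans hn))) (pow_pos hlp.pos k)
  calc _ ≤ (∑ l ∈ q.primeFactors, n / l ^ k) * 2 ^ k := Nat.mul_le_mul_right _ h1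
    _ ≤ ∑ _l ∈ q.primeFactors, n := by
        rw [Finset.sum_mul]
        refine Finset.sum_le_sum fun l hl => le_trans (Nat.mul_le_mul_left _
          (Nat.pow_le_pow_left (Nat.prime_of_mem_primeFactors hl).two_le k)) ?_
        exact Nat.div_mul_le_self _ _
    _ ≤ q * n := by
        rw [Finset.sum_const, smul_eq_mul]
        refine Nat.mul_le_mul_right n
          ((Finset.card_le_card (t := Finset.Icc 1 q) fun l hl => ?_).trans
          (by simp))
        exact Finset.mem_Icc.mpr ⟨(Nat.prime_of_mem_primeFactors hl).one_le,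
          Nat.le_of_dvd (Nat.pos_of_ne_zero hq) (Nat.dvd_of_mem_primeFactors hl)⟩

/-- An element whose image in `(ℤ/p)ˣ` has order divisible by `4 d` has no power equal to `-1`. -/
theorem zpow_ne_neg_one {p : ℕ} {c : (ZMod (4 * p))ˣ}
    (hc : 4 ∣ orderOf (ZMod.unitsMap (Dvd.intro_left 4 rfl : p ∣ 4 * p) c)) (j : ℤ) :
    c ^ j ≠ -1 := fun hj => by
  set π : (ZMod (4 * p))ˣ →* (ZMod p)ˣ := ZMod.unitsMap (Dvd.intro_left 4 rfl)
  set π₄ : (ZMod (4 * p))ˣ →* (ZMod 4)ˣ := ZMod.unitsMap (Dvd.intro p rfl)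
  have h1 : π c ^ (2 * j) = 1 := by
    rw [← map_zpow, zpow_mul', hj, zpow_ofNat, neg_one_sq, map_one]
  have h2 : (4 : ℤ) ∣ 2 * j :=
    (Int.natCast_dvd_natCast.mpr hc).trans (orderOf_dvd_iff_zpow_eq_one.mpr h1)
  obtain ⟨r, hr⟩ : Even j := by
    obtain ⟨s, hs⟩ := h2
    exact ⟨s, by omega⟩
  refine Chebotarev.sq_ne_neg_one_four ((π₄ c) ^ r) ?_
  rw [← zpow_natCast, ← zpow_mul, ← map_zpow, show r * ((2 : ℕ) : ℤ) = j by push_cast; omega, hj]
  refine Units.ext ?_
  simp [π₄, ZMod.unitsMap]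

/-- The conjugators into distinct targets are disjoint. -/
theorem card_sum_le {A : Type*} [Group A] [Finite A] (F : A) (t : Finset A) :
    ∑ u ∈ t, Nat.card {h : A // h⁻¹ * F * h = u} ≤ Nat.card A := by
  classical
  have := Fintype.ofFinite A
  rw [Nat.card_eq_fintype_card, ← Finset.card_univ]
  simp only [Nat.card_eq_fintype_card, Fintype.card_subtype]
  rw [← Finset.card_biUnion fun u _ v _ huv => Finset.disjoint_left.mpr fun h hu hv =>
    huv ((Finset.mem_filter.mp hu).2.symm.trans (Finset.mem_filter.mp hv).2)]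
  exact Finset.card_le_univ _

/-- **Chebotarev, lower density form.** -/
theorem densityLower : DensityLower := by
  intro G _ _ π hπ hfac T S hT η hη
  classical
  obtain ⟨L, hL, hker⟩ := hfac
  have := hL
  have : Normal ℚ Ω := IsAlgClosure.normal ℚ Ω
  have : IsGalois ℚ Ω :=
    { to_isSeparable := Algebra.IsAlgebraic.isSeparable_of_perfectField,
      to_normal := inferInstance }
  let K := IntermediateField.normalClosure ℚ L Ω
  have hLK : L ≤ K := IntermediateField.le_normalClosure L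
  have hKn : Normal ℚ K := normalClosure.normal ℚ L Ω
  have hKf : FiniteDimensional ℚ K := normalClosure.is_finiteDimensional ℚ L Ω
  set resK : Γ →* (K ≃ₐ[ℚ] K) := AlgEquiv.restrictNormalHom K with hresK
  set d := Nat.card (K ≃ₐ[ℚ] K) with hd
  have hd0 : 0 < d := Nat.card_pos
  obtain ⟨k, hk⟩ := pow_unbounded_of_one_lt ((4 * d : ℕ) / η : ℝ) (one_lt_two : (1 : ℝ) < 2)
  obtain ⟨p, -, hp, hmod⟩ :=
    Nat.forall_exists_prime_gt_and_modEq 0 (q := (4 * d) ^ (k + 1)) (a := 1)
      (pow_ne_zero _ (by omega)) (Nat.coprime_one_left _)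
  have hpd : (4 * d) ^ (k + 1) ∣ p - 1 := (Nat.modEq_iff_dvd' hp.one_le).mp hmod.symm
  have : Fact p.Prime := ⟨hp⟩
  set m := 4 * p with hm
  have : NeZero m := ⟨mul_ne_zero four_ne_zero hp.ne_zero⟩
  obtain ⟨ζ, hζ⟩ := HasEnoughRootsOfUnity.exists_primitiveRoot Ω m
  let Z : IntermediateField ℚ Ω := IntermediateField.adjoin ℚ {ζ}
  have : IsCyclotomicExtension {m} ℚ Z := hζ.intermediateField_adjoin_isCyclotomicExtension ℚ
  have : FiniteDimensional ℚ Z := IsCyclotomicExtension.finiteDimensional {m} ℚ Z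
  have : IsGalois ℚ Z := IsCyclotomicExtension.isGalois {m} ℚ Z
  have hZn : Normal ℚ Z := IsGalois.to_normal
  let E : IntermediateField ℚ Ω := K ⊔ Z
  have hKE : K ≤ E := le_sup_left
  have hζE : ζ ∈ E := le_sup_right (α := IntermediateField ℚ Ω)
    (IntermediateField.mem_adjoin_simple_self ℚ ζ)
  have : NumberField E := { to_charZero := inferInstance, to_finiteDimensional := inferInstance }
  have : IsGalois ℚ E :=
    { to_isSeparable := inferInstance,
      to_normal := @IntermediateField.normal_sup ℚ Ω _ _ _ K Z hKn hZn }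
  let res : Γ →* (E ≃ₐ[ℚ] E) := AlgEquiv.restrictNormalHom E
  have hres : ∀ (τ : Γ) (x : E), ((res τ x : E) : Ω) = τ (x : Ω) := fun τ x ↦
    AlgEquiv.restrictNormal_commutes τ E x
  let z : E := ⟨ζ, hζE⟩
  have hz : IsPrimitiveRoot z m :=
    IsPrimitiveRoot.of_map_of_injective (f := algebraMap E Ω) hζ (algebraMap E Ω).injective
  have hcompat : ∀ τ : Γ, hz.autToPow ℚ (res τ) = hζ.autToPow ℚ τ := by
    intro τ
    refine Units.ext ?_
    have h1 : z ^ ((hz.autToPow ℚ (res τ) : (ZMod m)ˣ) : ZMod m).val = res τ z :=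
      hz.autToPow_spec ℚ (res τ)
    have h2 : ζ ^ ((hζ.autToPow ℚ τ : (ZMod m)ˣ) : ZMod m).val = τ ζ := hζ.autToPow_spec ℚ τ
    have h3 := congrArg (fun x : E ↦ (x : Ω)) h1
    simp only [SubmonoidClass.coe_pow, hres, z] at h3
    have := hζ.pow_inj (ZMod.val_lt _) (ZMod.val_lt _) (h3.trans h2.symm)
    rw [← ZMod.natCast_zmod_val ((hz.autToPow ℚ (res τ) : (ZMod m)ˣ) : ZMod m), this,
      ZMod.natCast_zmod_val]
  set f : (E ≃ₐ[ℚ] E) →* (ZMod p)ˣ :=
    (ZMod.unitsMap (Dvd.intro_left 4 rfl : p ∣ 4 * p)).comp (hz.autToPow ℚ) with hf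
  have hfsurj : Function.Surjective f := fun x => by
    obtain ⟨c, rfl⟩ := ZMod.unitsMap_surjective (Dvd.intro_left 4 rfl : p ∣ 4 * p) x
    obtain ⟨τ, rfl⟩ := Chebotarev.autToPow_surjective hζ c
    exact ⟨res τ, by rw [hf, MonoidHom.comp_apply, hcompat]⟩
  have hres_surj : Function.Surjective res := AlgEquiv.restrictNormalHom_surjective Ω
  have hkerle : res.ker ≤ π.ker := fun τ hτ => hker τ fun a ha => by
    rw [← hres τ ⟨a, hKE (hLK ha)⟩, MonoidHom.mem_ker.mp hτ]
    rfl
  let πE : (E ≃ₐ[ℚ] E) →* G := res.liftOfSurjective hres_surj ⟨π, hkerle⟩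
  have hπE : ∀ τ, πE (res τ) = π τ := fun τ =>
    MonoidHom.liftOfRightInverse_comp_apply res _ _ ⟨π, hkerle⟩ τ
  have hπEsurj : Function.Surjective πE := fun x => by
    obtain ⟨τ, rfl⟩ := hπ x
    exact ⟨res τ, hπE τ⟩
  let bad : Set (ZMod p)ˣ := {x | ¬ 4 * d ∣ orderOf x}
  let TE : Finset (E ≃ₐ[ℚ] E) := Finset.univ.filter fun u => πE u ∈ T ∧ f u ∉ bad
  -- separation
  have hinj : ∀ u : E ≃ₐ[ℚ] E, f u ∉ bad →
      ∀ h ∈ Subgroup.zpowers u, hz.autToPow ℚ h = 1 → h = 1 := by
    intro u hu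
    rintro _ ⟨j, rfl⟩ hj
    obtain ⟨σ, rfl⟩ := hres_surj u
    dsimp only at hj ⊢
    rw [← map_zpow] at hj ⊢
    have hdj : (d : ℤ) ∣ j := by
      refine (Int.natCast_dvd_natCast.mpr
        ((dvd_mul_left d 4).trans (not_not.mp hu))).trans (orderOf_dvd_iff_zpow_eq_one.mpr ?_)
      rw [← map_zpow, ← map_zpow, hf, MonoidHom.comp_apply, hj, map_one]
    have hK1 : resK (σ ^ j) = 1 := by
      obtain ⟨r, rfl⟩ := hdj
      rw [map_zpow, zpow_mul, zpow_natCast, hd, pow_card_eq_one', one_zpow]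
    rw [hcompat] at hj
    have hfix : E ≤ IntermediateField.fixedField (Subgroup.zpowers (σ ^ j)) := by
      have hsub : ∀ x : Ω, (σ ^ j) x = x →
          x ∈ IntermediateField.fixedField (Subgroup.zpowers (σ ^ j)) := by
        intro x hx
        rw [IntermediateField.mem_fixedField_iff]
        intro h hh
        have hle : Subgroup.zpowers (σ ^ j) ≤ MulAction.stabilizer Γ x :=
          Subgroup.zpowers_le.mpr (MulAction.mem_stabilizer_iff.mpr hx)
        exact MulAction.mem_stabilizer_iff.mp (hle hh)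
      refine sup_le (fun x hx ↦ hsub x ?_) (IntermediateField.adjoin_le_iff.mpr ?_)
      · have h := congrArg (fun φ : K ≃ₐ[ℚ] K ↦ ((φ ⟨x, hx⟩ : K) : Ω)) hK1
        exact (AlgEquiv.restrictNormal_commutes (σ ^ j) K ⟨x, hx⟩).symm.trans h
      rintro x rfl
      refine hsub _ ?_
      have hspec : x ^ ((hζ.autToPow ℚ (σ ^ j) : (ZMod m)ˣ) : ZMod m).val = (σ ^ j) x :=
        hζ.autToPow_spec ℚ (σ ^ j)
      rw [← hspec, hj, Units.val_one, ZMod.val_one_eq_one_mod, ← pow_eq_pow_mod 1 hζ.pow_eq_one,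
        pow_one]
    refine AlgEquiv.ext fun x ↦ Subtype.ext ?_
    rw [hres]
    exact (IntermediateField.mem_fixedField_iff _ _).mp (hfix x.2) _ (Subgroup.mem_zpowers _)
  have hneg : ∀ u : E ≃ₐ[ℚ] E, f u ∉ bad →
      ∀ h ∈ Subgroup.zpowers u, hz.autToPow ℚ h ≠ -1 := by
    intro u hu
    rintro _ ⟨j, rfl⟩
    dsimp only
    rw [map_zpow]
    exact zpow_ne_neg_one ((dvd_mul_right 4 d).trans (not_not.mp hu)) j
  -- Frobenius data
  choose A σp hA hσp using fun p : Nat.Primes ↦
    Frobenius.exists_liesOverPrime_and_isFrobeniusAt (L := Ω) p.2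
  let toΩ : 𝓞 E →+* Ω := (algebraMap E Ω).comp (algebraMap (𝓞 E) E)
  have hmemA : ∀ (p : Nat.Primes) (x : 𝓞 E), toΩ x ∈ (A p).toSubring := fun p x ↦
    Frobenius.mem_of_isIntegral (A p)
      (x.isIntegral_coe.map (E.val.restrictScalars ℤ))
  let Qf : Nat.Primes → Ideal (𝓞 E) := fun p ↦
    (IsLocalRing.maximalIdeal (A p)).comap (toΩ.codRestrict (A p).toSubring (hmemA p))
  have hQmem : ∀ p x, x ∈ Qf p ↔ toΩ x ∈ (A p).nonunits := fun p x ↦ by
    show toΩ.codRestrict (A p).toSubring (hmemA p) x ∈ IsLocalRing.maximalIdeal (A p) ↔ _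
    rw [← ValuationSubring.coe_mem_nonunits_iff]
    rfl
  have hFr : ∀ p : Nat.Primes, IsFrobPair p (res (σp p)) (Qf p) := by
    intro p
    refine ⟨Ideal.IsPrime.comap _, ?_, fun x ↦ ?_⟩
    · rw [hQmem, map_natCast]
      exact hA p
    · rw [hQmem, map_sub, map_pow]
      obtain ⟨hd, hres'⟩ := hσp p
      have h2 := hres' (IsLocalRing.residue (A p) ⟨toΩ x, hmemA p x⟩)
      rw [← IsLocalRing.ResidueField.residue_smul, ← map_pow, ← sub_eq_zero, ← map_sub,
        IsLocalRing.residue_eq_zero_iff, ← ValuationSubring.coe_mem_nonunits_iff] at h2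
      have h3 : toΩ (res (σp p) • x) = σp p (toΩ x) := hres (σp p) (x : E)
      rw [h3]
      exact h2
  -- the separated part of the preimage of `T` is large
  set g := Nat.card (E ≃ₐ[ℚ] E) with hg
  have hg0 : (0 : ℝ) < g := Nat.cast_pos.mpr Nat.card_pos
  have hfrac : (Nat.card T : ℝ) / Nat.card G - η ≤ (TE.card : ℝ) / g := by
    have hG := card_preimage_eq πE hπEsurj Set.univ
    have h1 := card_preimage_eq πE hπEsurj T
    have hP := card_preimage_eq f hfsurj Set.univ
    have h2 := card_preimage_eq f hfsurj bad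
    simp only [Set.preimage_univ, Nat.card_univ] at hG hP
    have h3 : Nat.card (πE ⁻¹' T) ≤ TE.card + Nat.card (f ⁻¹' bad) := by
      simp only [Nat.card_eq_card_toFinset]
      refine (Finset.card_le_card fun u hu => ?_).trans (Finset.card_union_le _ _)
      rw [Set.mem_toFinset] at hu
      by_cases hb : f u ∈ bad
      · exact Finset.mem_union_right _ (Set.mem_toFinset.mpr hb)
      · exact Finset.mem_union_left _ (Finset.mem_filter.mpr ⟨Finset.mem_univ _, hu, hb⟩)
    have hbad : (Nat.card (f ⁻¹' bad) : ℝ) ≤ η * g := by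
      have h4 : Nat.card bad * 2 ^ k ≤ 4 * d * Nat.card (ZMod p)ˣ :=
        card_not_dvd_orderOf_le (by omega) (by
          rw [Nat.card_eq_fintype_card, ZMod.card_units]; exact hpd)
      have h5 : Nat.card (f ⁻¹' bad) * 2 ^ k ≤ 4 * d * g := by
        rw [h2, hg, hP, mul_right_comm, ← mul_assoc]
        exact Nat.mul_le_mul_right _ h4
      have h5' : (Nat.card (f ⁻¹' bad) : ℝ) * 2 ^ k ≤ (4 * d : ℕ) * g := by exact_mod_cast h5
      rw [div_lt_iff₀ hη] at hk
      refine le_of_mul_le_mul_right (h5'.trans ?_) (pow_pos two_pos k)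
      nlinarith
    have hTG : (Nat.card T : ℝ) / Nat.card G = (Nat.card (πE ⁻¹' T) : ℝ) / g := by
      rw [h1, hg, hG]
      push_cast
      rw [mul_div_mul_right]
      exact Nat.cast_ne_zero.mpr Nat.card_pos.ne'
    have h3' : (Nat.card (πE ⁻¹' T) : ℝ) ≤ TE.card + Nat.card (f ⁻¹' bad) := by exact_mod_cast h3
    rw [hTG, sub_le_iff_le_add, div_add' _ _ _ hg0.ne']
    exact (div_le_div_iff_of_pos_right hg0).mpr (by linarith)
  -- prime sums
  let P : ℕ → Prop := fun p ↦ p ∉ S ∧ ∃ Q : ValuationSubring (AlgebraicClosure ℚ),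
    Q.LiesOverPrime p ∧ ∃ σ : Γ, Q.IsFrobeniusAt σ p ∧ π σ ∈ T
  let vP : Nat.Primes → ℂ := fun p => if P p then 1 else 0
  let vS : Nat.Primes → ℂ := fun p => if (p : ℕ) ∈ S then 1 else 0
  let w : Nat.Primes → ℂ := fun p =>
    ∑ u ∈ TE, (Nat.card {h : E ≃ₐ[ℚ] E // h⁻¹ * res (σp p) * h = u} : ℂ)
  have hbnd : ∀ (u : E ≃ₐ[ℚ] E), WBounded fun p : Nat.Primes =>
      (Nat.card {h : E ≃ₐ[ℚ] E // h⁻¹ * res (σp p) * h = u} : ℂ) := fun u => ⟨g, fun p => by
    rw [Complex.norm_natCast]
    exact_mod_cast Nat.card_le_card_of_injective _ Subtype.val_injective⟩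
  have hwsum : LogSum w (TE.card : ℂ) := by
    have h := LogSum.sum TE (k := fun _ => 1) (fun u _ => hbnd u) fun u hu =>
      logSum_frobenius_conj hz u (hinj u (Finset.mem_filter.mp hu).2.2)
        (hneg u (Finset.mem_filter.mp hu).2.2)
        (fun m' _ χ hχ ↦ lSeriesDichotomy_of_even _ χ hχ) (fun p ↦ res (σp p)) Qf hFr
    rw [Finset.sum_const, nsmul_eq_mul, mul_one] at h
    exact h
  have hvSfin : {p | vS p ≠ 0}.Finite :=
    (S.finite_toSet.preimage Nat.Primes.coe_nat_injective.injOn).subset fun p hp => by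
      by_contra h
      exact hp (if_neg h)
  have hvPb : WBounded vP := ⟨1, fun p => by simp only [vP]; split_ifs <;> simp⟩
  have hvSb : WBounded vS := WBounded.of_finite hvSfin
  have hwb : WBounded w := ⟨TE.card * g, fun p => by
    refine (norm_sum_le _ _).trans ((Finset.sum_le_sum fun u _ => ?_).trans (by
      rw [Finset.sum_const, nsmul_eq_mul]))
    rw [Complex.norm_natCast]
    exact_mod_cast Nat.card_le_card_of_injective _ Subtype.val_injective⟩
  have hle : ∀ p, (w p).re ≤ ((g : ℂ) * (vP p + vS p)).re := by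
    intro p
    simp only [w, ← Nat.cast_sum, Complex.natCast_re]
    by_cases hS : (p : ℕ) ∈ S
    · have hv : ((g : ℂ) * (vP p + vS p)).re = g := by simp [vP, vS, P, hS]
      rw [hv, Nat.cast_le]
      exact card_sum_le _ _
    · by_cases hex : ∃ u ∈ TE, ∃ h : E ≃ₐ[ℚ] E, h⁻¹ * res (σp p) * h = u
      · obtain ⟨u, hu, h, hh⟩ := hex
        have hP : P p := by
          refine ⟨hS, A p, hA p, σp p, hσp p, ?_⟩
          have huT := (Finset.mem_filter.mp hu).2.1
          have := hT (πE h) _ huT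
          rwa [← hh, map_mul, map_mul, map_inv, hπE,
            show πE h * ((πE h)⁻¹ * π (σp p) * πE h) * (πE h)⁻¹ = π (σp p) by group] at this
        have hv : ((g : ℂ) * (vP p + vS p)).re = g := by simp [vP, vS, hP, hS]
        rw [hv, Nat.cast_le]
        exact card_sum_le _ _
      · push Not at hex
        rw [Finset.sum_eq_zero fun u hu => ?_]
        · simp only [vP, vS, if_neg hS, add_zero]
          split_ifs <;> simp
        · have : IsEmpty {h : E ≃ₐ[ℚ] E // h⁻¹ * res (σp p) * h = u} :=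
            ⟨fun h => hex u hu h.1 h.2⟩
          simp
  have hweight : ∀ s : ℝ, 1 < s → (wSum vP s).re = primeWeight P s := by
    intro s hs
    rw [wSum, Complex.re_tsum (summable_wSum hvPb hs), primeWeight]
    refine tsum_congr fun p => ?_
    rw [primePow_eq_ofReal]
    by_cases hp : P p <;> simp [vP, hp]
  obtain ⟨l, hl⟩ := hwsum.re_tendsto
  obtain ⟨lS, hlS⟩ := (LogSum.of_finite hvSfin).re_tendsto
  set c := (Nat.card T : ℝ) / Nat.card G - η
  have hev : ∀ᶠ s in 𝓝[>] (1 : ℝ),
      c * poleLog s - (|l| + 1) / g - (|lS| + 1) ≤ primeWeight P s := by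
    filter_upwards [hl.eventually (eventually_ge_nhds (show -(|l| + 1) < l by
        linarith [neg_abs_le l])), hlS.eventually (eventually_le_nhds (show lS < |lS| + 1 by
        linarith [le_abs_self lS])), Ioc_mem_nhdsGT_one] with s h1 h2 hs
    have h3 := re_wSum_le hwb ((hvPb.add hvSb).const_mul (g : ℂ)) hle hs.1
    rw [wSum_const_mul, wSum_add hvPb hvSb hs.1, Complex.mul_re, Complex.natCast_re,
      Complex.natCast_im, zero_mul, sub_zero,
      Complex.add_re, hweight s hs.1] at h3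
    simp only [zero_mul, sub_zero] at h1 h2
    have hlog : 0 ≤ poleLog s :=
      Real.log_nonneg ((one_le_inv₀ (sub_pos.mpr hs.1)).mpr (by linarith [hs.2]))
    have h4 : c * poleLog s ≤ (TE.card : ℝ) / g * poleLog s :=
      mul_le_mul_of_nonneg_right hfrac hlog
    have h5 : (TE.card : ℝ) * poleLog s - (|l| + 1) ≤ g * (primeWeight P s + (|lS| + 1)) := by
      have : logPole s = poleLog s := rfl
      nlinarith
    rw [← div_le_iff₀' hg0, sub_div, mul_div_right_comm] at h5
    linarith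
  obtain ⟨δ, hδ, hsub⟩ := mem_nhdsGT_iff_exists_Ioo_subset.mp hev
  refine ⟨max ((|l| + 1) / g + (|lS| + 1)) (|c| * |Real.log (δ - 1)⁻¹|), fun s hs => ?_⟩
  by_cases hsδ : s < δ
  · have h := hsub ⟨hs.1, hsδ⟩
    simp only [Set.mem_ofPred_eq] at h
    linarith [le_max_left ((|l| + 1) / g + (|lS| + 1)) (|c| * |Real.log (δ - 1)⁻¹|)]
  · rw [not_lt] at hsδ
    have hw0 : 0 ≤ primeWeight P s :=
      tsum_nonneg fun p => Set.indicator_nonneg (fun q _ => by positivity) p
    have hlog : 0 ≤ poleLog s :=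
      Real.log_nonneg ((one_le_inv₀ (sub_pos.mpr hs.1)).mpr (by linarith [hs.2]))
    have hle' : poleLog s ≤ |Real.log (δ - 1)⁻¹| :=
      le_trans (Real.log_le_log (inv_pos.mpr (sub_pos.mpr hs.1))
        (inv_anti₀ (sub_pos.mpr hδ) (by linarith))) (le_abs_self _)
    have : c * poleLog s ≤ |c| * |Real.log (δ - 1)⁻¹| :=
      le_trans (mul_le_mul_of_nonneg_right (le_abs_self c) hlog)
        (mul_le_mul_of_nonneg_left hle' (abs_nonneg c))
    linarith [le_max_right ((|l| + 1) / g + (|lS| + 1)) (|c| * |Real.log (δ - 1)⁻¹|)]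

end Fermat.Agent.Row48

end
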