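import Fermat.Agent.Row48.Defs

/-!
# Outside a set of small density the coefficients take finitely many values

A coefficient with large absolute value under some embedding costs `M` in the truncated second
moment of that conjugate, and integers of a number field with bounded conjugates are finite.
-/

set_option autoImplicit false

noncomputable section

open scoped NumberField

namespace Fermat.Agent.Row48

/-- The truncated terms are summable. -/
theorem summable_indicator_min (N : ℕ) (b : ℕ → ℂ) {M : ℝ} (hM : 0 ≤ M) {s : ℝ} (hs : 1 < s) :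
    Summable (Set.indicator {q : Nat.Primes | ¬ (q : ℕ) ∣ N}
      fun q => min (‖b q‖ ^ 2) M * ((q : ℕ) : ℝ) ^ (-s)) := by
  have h0 : Summable fun q : Nat.Primes => M * ((q : ℕ) : ℝ) ^ (-s) :=
    (Nat.Primes.summable_rpow.mpr (by linarith : -s < -1)).mul_left M
  refine Summable.of_nonneg_of_le (f := fun q : Nat.Primes => M * ((q : ℕ) : ℝ) ^ (-s))
    (fun q => ?_) (fun q => ?_) h0
  · exact Set.indicator_nonneg (fun q _ => mul_nonneg (le_min (sq_nonneg _) hM) (by positivity)) q
  · rw [Set.indicator_apply]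
    split_ifs
    · exact mul_le_mul_of_nonneg_right (min_le_right _ _) (by positivity)
    · positivity

/-- **The exception bound** from the prime bound of all conjugates. -/
theorem exceptionBound_of_coefficients {N : ℕ} {ε : DirichletCharacter ℂ N} {a : ℕ → ℂ}
    (h : Coefficients N ε a) : ExceptionBound N a := by
  classical
  obtain ⟨K, hK, hmem, hconj⟩ := h.exists_field
  have : NumberField K := { to_finiteDimensional := hK }
  choose b hb hbσ using hconj
  intro η hη
  set d : ℕ := Fintype.card (K →+* ℂ)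
  obtain ⟨M, hM, hdM⟩ : ∃ M : ℝ, 0 < M ∧ (d : ℝ) ≤ η * M :=
    ⟨(d + 1) / η, by positivity, by rw [mul_div_cancel₀ _ hη.ne']; linarith⟩
  have hfin := NumberField.Embeddings.finite_of_norm_le K ℂ √M
  refine ⟨hfin.toFinset.image fun x : K => (x : ℂ), fun y hy => ?_, ?_⟩
  · obtain ⟨x, hx, rfl⟩ := Finset.mem_image.mp hy
    exact (hfin.mem_toFinset.mp hx).1.map (K.val.restrictScalars ℤ)
  choose C hC using fun σ => hb σ M
  refine ⟨(∑ σ, C σ) / M, fun s hs => ?_⟩
  set Y := hfin.toFinset.image fun x : K => (x : ℂ) with hY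
  set S := {q : Nat.Primes | ¬ (q : ℕ) ∣ N}
  let w : (K →+* ℂ) → Nat.Primes → ℝ := fun σ =>
    S.indicator fun q => min (‖b σ q‖ ^ 2) M * ((q : ℕ) : ℝ) ^ (-s)
  have hw : ∀ σ, Summable (w σ) := fun σ => summable_indicator_min N (b σ) hM.le hs.1
  have hw0 : ∀ σ q, 0 ≤ w σ q := fun σ => Set.indicator_nonneg fun q _ =>
    mul_nonneg (le_min (sq_nonneg _) hM.le) (by positivity)
  have hpole : 0 ≤ poleLog s :=
    Real.log_nonneg ((one_le_inv₀ (sub_pos.mpr hs.1)).mpr (by linarith [hs.2]))
  let e : Nat.Primes → ℝ :=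
    Set.indicator {q : Nat.Primes | ¬ (q : ℕ) ∣ N ∧ a q ∉ Y} fun q => ((q : ℕ) : ℝ) ^ (-s)
  have hle : ∀ q, M * e q ≤ ∑ σ, w σ q := by
    intro q
    by_cases hq : ¬ (q : ℕ) ∣ N ∧ a q ∉ Y
    · obtain ⟨hqN, hqY⟩ := hq
      obtain ⟨hqK, -⟩ := hmem q q.2 hqN
      let x : K := ⟨a q, hqK⟩
      obtain ⟨σ, hσ⟩ : ∃ σ : K →+* ℂ, √M < ‖σ x‖ := by
        by_contra hne
        push Not at hne
        refine hqY (Finset.mem_image.mpr ⟨x, hfin.mem_toFinset.mpr ⟨?_, hne⟩, rfl⟩)
        exact (isIntegral_algebraMap_iff (algebraMap K ℂ).injective).mp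
          (h.isIntegral q q.2 hqN : IsIntegral ℤ (algebraMap K ℂ x))
      refine le_trans (le_of_eq ?_)
        (Finset.single_le_sum (fun σ _ => hw0 σ q) (Finset.mem_univ σ))
      show M * Set.indicator _ _ q = Set.indicator _ _ q
      rw [Set.indicator_of_mem
        (show q ∈ {q : Nat.Primes | ¬ (q : ℕ) ∣ N ∧ a q ∉ Y} from ⟨hqN, hqY⟩),
        Set.indicator_of_mem (show q ∈ S from hqN), min_eq_right]
      rw [hbσ σ q q.2 hqN x rfl]
      exact ((Real.sqrt_lt' ((Real.sqrt_nonneg M).trans_lt hσ)).mp hσ).le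
    · rw [show e q = 0 from Set.indicator_of_notMem
        (show q ∉ {q : Nat.Primes | ¬ (q : ℕ) ∣ N ∧ a q ∉ Y} from hq) _, mul_zero]
      exact Finset.sum_nonneg fun σ _ => hw0 σ q
  have hsum : Summable fun q => M * e q :=
    ((Nat.Primes.summable_rpow.mpr (by linarith [hs.1] : -s < -1)).indicator _).mul_left M
  have hmain : M * primeWeight (fun p => ¬ p ∣ N ∧ a p ∉ Y) s ≤ d * poleLog s + ∑ σ, C σ := by
    rw [primeWeight, ← tsum_mul_left]
    refine (Summable.tsum_le_tsum hle hsum (summable_sum fun σ _ => hw σ)).trans ?_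
    rw [Summable.tsum_finsetSum fun σ _ => hw σ]
    refine (Finset.sum_le_sum fun σ _ => hC σ s hs).trans (le_of_eq ?_)
    rw [Finset.sum_add_distrib, Finset.sum_const, Finset.card_univ, nsmul_eq_mul]
  rw [show η * poleLog s + (∑ σ, C σ) / M = (η * M * poleLog s + ∑ σ, C σ) / M by field_simp,
    le_div_iff₀ hM]
  nlinarith [mul_le_mul_of_nonneg_right hdM hpole]

end Fermat.Agent.Row48

end
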