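import Fermat.Agent.DefRing.Burnside
import Mathlib.LinearAlgebra.Matrix.GeneralLinearGroup.Defs

/-!
# Bounded image

A two-dimensional representation of a finite group whose traces and determinants take few values
on most elements has the trace and determinant of a representation with small image.
-/

set_option autoImplicit false

open scoped MatrixGroups

namespace Fermat.Agent.Row48

/-- A homomorphism sending most elements into a small set has small image. -/
theorem card_range_le_of_subset {G M : Type*} [Group G] [Finite G] [Group M] (f : G →* M)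
    (H : Finset G) (Z : Finset M) (c : ℕ) (hZ : ∀ g ∈ H, f g ∈ Z)
    (hc : Nat.card G ≤ c * H.card) : Nat.card f.range ≤ c * Z.card := by
  classical
  have := Fintype.ofFinite G
  have hK : 0 < Nat.card f.ker := Nat.card_pos
  have hle : H.card ≤ Nat.card f.ker * Z.card := by
    refine Finset.card_le_mul_card_image_of_maps_to hZ _ fun b _ => ?_
    rcases (H.filter fun g => f g = b).eq_empty_or_nonempty with h | ⟨g₀, hg₀⟩
    · simp [h]
    · rw [← Nat.card_eq_finsetCard]
      refine Nat.card_le_card_of_injective (fun g => (⟨g₀⁻¹ * g.1, by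
        rw [MonoidHom.mem_ker, map_mul, map_inv, (Finset.mem_filter.mp g.2).2,
          (Finset.mem_filter.mp hg₀).2, inv_mul_cancel]⟩ : f.ker)) fun g g' h => ?_
      exact Subtype.ext (mul_left_cancel (congrArg Subtype.val h))
  have hG : Nat.card G = Nat.card f.range * Nat.card f.ker := by
    rw [← Subgroup.index_ker, ← Subgroup.card_mul_index f.ker, mul_comm]
  refine Nat.le_of_mul_le_mul_right ?_ hK
  calc Nat.card f.range * Nat.card f.ker = Nat.card G := hG.symm
    _ ≤ c * H.card := hc
    _ ≤ c * (Nat.card f.ker * Z.card) := Nat.mul_le_mul_left c hle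
    _ = c * Z.card * Nat.card f.ker := by ring

variable {G : Type*} [Group G] [Finite G] {k : Type*} [Field k] [IsAlgClosed k]

/-- The irreducible case: four translates of the good set determine the element. -/
theorem card_range_le_of_irreducible (r : G →* GL (Fin 2) k)
    (hirr : ∀ W : Submodule k (Fin 2 → k),
      (∀ g, ∀ x ∈ W, Matrix.mulVec (r g : Matrix (Fin 2) (Fin 2) k) x ∈ W) → W = ⊥ ∨ W = ⊤)
    (T : Finset k) (H : Finset G)
    (hH : ∀ g ∈ H, (r g : Matrix (Fin 2) (Fin 2) k).trace ∈ T)
    (hc : 8 * Nat.card G ≤ 8 * H.card + Nat.card G) :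
    Nat.card r.range ≤ 2 * T.card ^ 4 := by
  classical
  have := Fintype.ofFinite G
  let R : G →* Matrix (Fin 2) (Fin 2) k := (Units.coeHom _).comp r
  have hspan : Submodule.span k (Set.range R) = ⊤ := by
    refine eq_top_iff.mpr fun M _ => ?_
    obtain ⟨x, rfl⟩ := (DefRing.lift_range_eq_top_of_irreducible R hirr ▸ Algebra.mem_top :
      M ∈ (MonoidAlgebra.lift k (Matrix (Fin 2) (Fin 2) k) G R).range)
    induction x using MonoidAlgebra.induction_linear with
    | zero => simp
    | add x y hx hy => rw [map_add]; exact add_mem (hx Submodule.mem_top) (hy Submodule.mem_top)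
    | single g a =>
      simpa using Submodule.smul_mem (Submodule.span k (Set.range R)) a
        (Submodule.subset_span (Set.mem_range_self g))
  obtain ⟨t, ht, htspan, htlin⟩ := exists_linearIndependent k (Set.range R)
  have : Fintype t := htlin.setFinite.fintype
  have ht4 : Fintype.card t = 4 := by
    have hb := Module.Basis.mk htlin (by rw [Subtype.range_coe, htspan, hspan])
    rw [← Module.finrank_eq_card_basis hb, Module.finrank_matrix]
    simp
  choose g hg using fun x : t => ht x.2
  let H' : Finset G := Finset.univ.filter fun h => ∀ x : t, h * g x ∈ H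
  have hH' : Nat.card G ≤ 2 * H'.card := by
    have h1 : H'ᶜ ⊆ Finset.univ.biUnion fun x : t => Finset.univ.filter fun h => h * g x ∉ H := by
      intro h hh
      simp only [H', Finset.mem_compl, Finset.mem_filter, Finset.mem_univ, true_and,
        not_forall] at hh
      simpa [Finset.mem_biUnion] using hh
    have h2 : ∀ x : t, (Finset.univ.filter fun h => h * g x ∉ H).card = Hᶜ.card := fun x => by
      refine Finset.card_equiv (Equiv.mulRight (g x)) fun h => ?_
      simp
    have h3 := (Finset.card_le_card h1).trans Finset.card_biUnion_le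
    rw [Finset.sum_congr rfl fun x _ => h2 x, Finset.sum_const, Finset.card_univ, ht4,
      smul_eq_mul, Finset.card_compl, Finset.card_compl] at h3
    have := H.card_le_univ
    have := H'.card_le_univ
    rw [Nat.card_eq_fintype_card] at hc ⊢
    omega
  let Φ : GL (Fin 2) k → t → k := fun M x => ((M : Matrix (Fin 2) (Fin 2) k) * x.1).trace
  have hinj : Function.Injective Φ := by
    intro M N h
    refine Units.ext (Matrix.ext_iff_trace_mul_right.mpr fun X => ?_)
    have hX : X ∈ Submodule.span k t := htspan ▸ hspan ▸ Submodule.mem_top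
    induction hX using Submodule.span_induction with
    | mem y hy => exact congrFun h ⟨y, hy⟩
    | zero => simp
    | add y z _ _ hy hz => simp [mul_add, hy, hz]
    | smul a y _ hy => simp [hy]
  let Z : Finset (GL (Fin 2) k) := H'.image r
  refine (card_range_le_of_subset r H' Z 2 (fun h hh => Finset.mem_image_of_mem r hh) hH').trans
    (Nat.mul_le_mul_left 2 ?_)
  have hle : Z.card ≤ (Fintype.piFinset fun _ : t => T).card := by
    refine Finset.card_le_card_of_injOn Φ (fun M hM => ?_) hinj.injOn
    obtain ⟨h, hh, rfl⟩ := Finset.mem_image.mp (Finset.mem_coe.mp hM)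
    rw [Finset.mem_coe, Fintype.mem_piFinset]
    intro x
    have he : ((r h : Matrix (Fin 2) (Fin 2) k) * x.1).trace
        = (r (h * g x) : Matrix (Fin 2) (Fin 2) k).trace := by
      rw [← hg x, map_mul, Units.val_mul]
      rfl
    show _ ∈ T
    rw [show Φ (r h) x = _ from he]
    exact hH _ ((Finset.mem_filter.mp hh).2 x)
  simpa [Fintype.card_piFinset, ht4] using hle

omit [Finite G] [IsAlgClosed k] in
/-- The two characters of a representation with an eigenvector. -/
theorem exists_diagonal_of_reducible (r : G →* GL (Fin 2) k) {W : Submodule k (Fin 2 → k)}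
    (hW : ∀ g, ∀ x ∈ W, Matrix.mulVec (r g : Matrix (Fin 2) (Fin 2) k) x ∈ W)
    (h0 : W ≠ ⊥) (h1 : W ≠ ⊤) :
    ∃ χ : G →* kˣ × kˣ, ∀ g,
      (r g : Matrix (Fin 2) (Fin 2) k).trace = (χ g).1 + (χ g).2 ∧
      (r g : Matrix (Fin 2) (Fin 2) k).det = (χ g).1 * (χ g).2 := by
  obtain ⟨v, hv, hv0⟩ := Submodule.exists_mem_ne_zero_of_ne_bot h0
  have hWv : W = Submodule.span k {v} := by
    refine (Submodule.eq_of_le_of_finrank_le
      (Submodule.span_le.mpr (Set.singleton_subset_iff.mpr hv)) ?_).symm
    rw [finrank_span_singleton hv0]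
    have h := Submodule.finrank_lt h1
    rw [Module.finrank_fin_fun] at h
    omega
  have heig : ∀ g, ∃ c : k, (r g : Matrix (Fin 2) (Fin 2) k).mulVec v = c • v := fun g => by
    obtain ⟨c, hc⟩ := Submodule.mem_span_singleton.mp (hWv ▸ hW g v hv)
    exact ⟨c, hc.symm⟩
  choose c hc using heig
  have hcc : ∀ g h, c (g * h) = c g * c h := fun g h => smul_left_injective k hv0 (by
    show c (g * h) • v = (c g * c h) • v
    rw [← hc, map_mul, Units.val_mul, ← Matrix.mulVec_mulVec, hc, Matrix.mulVec_smul, hc,
      smul_smul, mul_comm])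
  have hc1 : c 1 = 1 := smul_left_injective k hv0 (by
    show c 1 • v = (1 : k) • v
    rw [← hc, map_one, Units.val_one, Matrix.one_mulVec, one_smul])
  let c' : G →* kˣ := ({ toFun := c, map_one' := hc1, map_mul' := hcc } : G →* k).toHomUnits
  let d : G →* kˣ := Matrix.GeneralLinearGroup.det.comp r
  refine ⟨{ toFun := fun g => (c' g, d g / c' g)
            map_one' := by simp
            map_mul' := fun g h => by simp [mul_div_mul_comm] }, fun g => ?_⟩
  have hdet : (r g : Matrix (Fin 2) (Fin 2) k).det = (d g : k) := rfl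
  have hcg : (c' g : k) = c g := MonoidHom.coe_toHomUnits _ _
  have hne : c g ≠ 0 := hcg ▸ (c' g).ne_zero
  have hroot : c g * c g - (r g : Matrix (Fin 2) (Fin 2) k).trace * c g
      + (r g : Matrix (Fin 2) (Fin 2) k).det = 0 := by
    have hdet0 : ((r g : Matrix (Fin 2) (Fin 2) k) - c g • 1).det = 0 :=
      Matrix.exists_mulVec_eq_zero_iff.mp ⟨v, hv0, by
        rw [Matrix.sub_mulVec, Matrix.smul_mulVec, Matrix.one_mulVec, hc, sub_self]⟩
    simp only [Matrix.det_fin_two, Matrix.trace_fin_two, Matrix.sub_apply, Matrix.smul_apply,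
      Matrix.one_apply_eq, Matrix.one_apply_ne (show (0 : Fin 2) ≠ 1 by decide),
      Matrix.one_apply_ne (show (1 : Fin 2) ≠ 0 by decide), smul_eq_mul] at hdet0 ⊢
    linear_combination hdet0
  show _ = (c' g : k) + ((d g / c' g : kˣ) : k) ∧ _ = (c' g : k) * ((d g / c' g : kˣ) : k)
  rw [Units.val_div_eq_div_val, hcg, ← hdet]
  constructor
  · field_simp
    linear_combination -hroot
  · field_simp

/-- **Bounded image**: if the traces and determinants of all but an eighth of the elements lie in
`T`, some representation with the same traces and determinants has image of size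
`≤ 4 |T| + 2 |T| ^ 4`. -/
theorem exists_bounded_range (r : G →* GL (Fin 2) k) (T : Finset (k × k)) (H : Finset G)
    (hH : ∀ g ∈ H,
      ((r g : Matrix (Fin 2) (Fin 2) k).trace, (r g : Matrix (Fin 2) (Fin 2) k).det) ∈ T)
    (hc : 8 * Nat.card G ≤ 8 * H.card + Nat.card G) :
    ∃ r' : G →* GL (Fin 2) k,
      (∀ g, (r' g : Matrix (Fin 2) (Fin 2) k).trace = (r g : Matrix (Fin 2) (Fin 2) k).trace ∧
        (r' g : Matrix (Fin 2) (Fin 2) k).det = (r g : Matrix (Fin 2) (Fin 2) k).det) ∧
      Nat.card r'.range ≤ 4 * T.card + 2 * T.card ^ 4 := by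
  classical
  by_cases hirr : ∀ W : Submodule k (Fin 2 → k),
      (∀ g, ∀ x ∈ W, Matrix.mulVec (r g : Matrix (Fin 2) (Fin 2) k) x ∈ W) → W = ⊥ ∨ W = ⊤
  · refine ⟨r, fun g => ⟨rfl, rfl⟩, ?_⟩
    have h1 := card_range_le_of_irreducible r hirr (T.image Prod.fst) H
      (fun g hg => Finset.mem_image_of_mem Prod.fst (hH g hg)) hc
    have h2 : (T.image Prod.fst).card ^ 4 ≤ T.card ^ 4 :=
      Nat.pow_le_pow_left Finset.card_image_le 4
    omega
  · push Not at hirr
    obtain ⟨W, hW, h0, h1⟩ := hirr
    obtain ⟨χ, hχ⟩ := exists_diagonal_of_reducible r hW h0 h1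
    let D : kˣ × kˣ →* Matrix (Fin 2) (Fin 2) k :=
      { toFun := fun p => Matrix.diagonal ![(p.1 : k), (p.2 : k)]
        map_one' := by
          rw [← Matrix.diagonal_one]; congr 1; ext i; fin_cases i <;> simp
        map_mul' := fun p q => by
          rw [Matrix.diagonal_mul_diagonal]; congr 1; ext i; fin_cases i <;> simp }
    let δ : kˣ × kˣ →* GL (Fin 2) k := D.toHomUnits
    have hδ : ∀ p : kˣ × kˣ, (δ p : Matrix (Fin 2) (Fin 2) k)
        = Matrix.diagonal ![(p.1 : k), (p.2 : k)] := fun p => MonoidHom.coe_toHomUnits D p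
    refine ⟨δ.comp χ, fun g => ?_, ?_⟩
    · rw [MonoidHom.comp_apply, hδ, Matrix.trace_diagonal, Matrix.det_diagonal]
      simp [(hχ g).1, (hχ g).2, Fin.sum_univ_two, Fin.prod_univ_two]
    · let Z : Finset (kˣ × kˣ) := H.image χ
      have hZ : Z.card ≤ T.card * 2 := by
        refine Finset.card_le_mul_card_image_of_maps_to
          (f := fun p => ((p.1 : k) + p.2, (p.1 : k) * p.2)) (fun p hp => ?_) 2 (fun b _ => ?_)
          |>.trans (le_of_eq (mul_comm _ _))
        · obtain ⟨g, hg, rfl⟩ := Finset.mem_image.mp hp
          simpa [← (hχ g).1, ← (hχ g).2] using hH g hg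
        · rcases (Z.filter fun p => ((p.1 : k) + p.2, (p.1 : k) * p.2) = b).eq_empty_or_nonempty
            with h | ⟨p₀, hp₀⟩
          · simp [h]
          · refine (Finset.card_le_card (t := {p₀, (p₀.2, p₀.1)}) fun p hp => ?_).trans
              Finset.card_le_two
            have e := (Finset.mem_filter.mp hp).2.trans (Finset.mem_filter.mp hp₀).2.symm
            obtain ⟨e1, e2⟩ := Prod.mk.inj e
            have : ((p.1 : k) - p₀.1) * ((p.1 : k) - p₀.2) = 0 := by
              linear_combination (p.1 : k) * e1 - e2
            rcases mul_eq_zero.mp this with h | h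
            · exact Finset.mem_insert.mpr (Or.inl (Prod.ext (Units.ext (by linear_combination h))
                (Units.ext (by linear_combination e1 - h))))
            · exact Finset.mem_insert.mpr (Or.inr (Finset.mem_singleton.mpr
                (Prod.ext (Units.ext (by linear_combination h))
                  (Units.ext (by linear_combination e1 - h)))))
      have h2 := card_range_le_of_subset (δ.comp χ) H (Z.image δ) 2
        (fun g hg => Finset.mem_image_of_mem δ (Finset.mem_image_of_mem χ hg))
        (by omega)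
      have h3 : (Z.image δ).card ≤ Z.card := Finset.card_image_le
      omega

end Fermat.Agent.Row48
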