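import Mathlib

/-!
# Lifting two dimensional representations of a finite group to `ℂ`

A finite system of polynomial equations over a subring `R` of `ℂ` that has solutions in fields
over a jointly injective family of reductions of `R` has a solution in `ℂ` (Zariski's lemma), so
a finite group with prescribed traces and determinants in `R` that has such representations over
all the reductions has one over `ℂ`.
-/

set_option autoImplicit false

noncomputable section

namespace Fermat.Agent.Row48

open MvPolynomial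
open scoped nonZeroDivisors Matrix

attribute [local instance] MvPolynomial.algebraMvPolynomial

/-- Solvability over a jointly injective family of reductions gives solvability in `ℂ`. -/
theorem exists_complex_zero_of_reductions {σ : Type*} [Finite σ] (R : Subring ℂ)
    (S : Set (MvPolynomial σ R)) {ι : Type*} (k : ι → Type*) [∀ i, Field (k i)]
    (φ : ∀ i, R →+* k i) (hinj : ∀ r : R, (∀ i, φ i r = 0) → r = 0)
    (hsol : ∀ i, ∃ x : σ → k i, ∀ P ∈ S, eval₂ (φ i) x P = 0) :
    ∃ x : σ → ℂ, ∀ P ∈ S, eval₂ R.subtype x P = 0 := by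
  classical
  let K := FractionRing R
  let J : Ideal (MvPolynomial σ K) :=
    (Ideal.span S).map (algebraMap (MvPolynomial σ R) (MvPolynomial σ K))
  have hJ : J ≠ ⊤ := by
    intro h
    obtain ⟨⟨⟨a, ha⟩, ⟨s, hs⟩⟩, he⟩ := (IsLocalization.mem_map_algebraMap_iff
      ((nonZeroDivisors R).map <| C (σ := σ)) (MvPolynomial σ K)).mp
        ((Ideal.eq_top_iff_one J).mp h)
    obtain ⟨r, hr, rfl⟩ := Submonoid.mem_map.mp hs
    rw [one_mul] at he
    have hCa : C r = a := by
      apply MvPolynomial.map_injective (algebraMap R K) (IsFractionRing.injective R K)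
      exact he
    refine nonZeroDivisors.ne_zero hr (hinj r fun i => ?_)
    obtain ⟨x, hx⟩ := hsol i
    have h0 : Ideal.span S ≤ RingHom.ker (eval₂Hom (φ i) x) :=
      Ideal.span_le.mpr fun P hP => RingHom.mem_ker.mpr (hx P hP)
    simpa [← hCa] using RingHom.mem_ker.mp (h0 ha)
  obtain ⟨m, hm, hJm⟩ := Ideal.exists_le_maximal J hJ
  let := Ideal.Quotient.field m
  have : Module.Finite K (MvPolynomial σ K ⧸ m) := finite_of_finite_type_of_isJacobsonRing K _
  have hR : Function.Injective R.subtype := Subtype.val_injective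
  let : Algebra K ℂ := (IsFractionRing.lift hR).toAlgebra
  let π : (MvPolynomial σ K ⧸ m) →ₐ[K] ℂ := IsAlgClosed.lift
  refine ⟨fun s => π (Ideal.Quotient.mk m (X s)), fun P hP => ?_⟩
  let g : MvPolynomial σ R →+* ℂ := (π.toRingHom.comp (Ideal.Quotient.mk m)).comp
    (algebraMap (MvPolynomial σ R) (MvPolynomial σ K))
  have hg : g = eval₂Hom R.subtype fun s => π (Ideal.Quotient.mk m (X s)) := by
    refine MvPolynomial.ringHom_ext (fun r => ?_) fun s => ?_
    · simp only [g, RingHom.comp_apply, eval₂Hom_C, AlgHom.toRingHom_eq_coe, RingHom.coe_coe]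
      rw [MvPolynomial.algebraMap_def, MvPolynomial.map_C]
      show π (algebraMap K _ (algebraMap R K r)) = _
      rw [AlgHom.commutes]
      exact IsFractionRing.lift_algebraMap hR r
    · simp only [g, RingHom.comp_apply, eval₂Hom_X', AlgHom.toRingHom_eq_coe, RingHom.coe_coe]
      rw [MvPolynomial.algebraMap_def, MvPolynomial.map_X]
  have h1 : g P = 0 := by
    show π (Ideal.Quotient.mk m _) = 0
    rw [Ideal.Quotient.eq_zero_iff_mem.mpr (hJm (Ideal.mem_map_of_mem _ (Ideal.subset_span hP))),
      map_zero]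
  rwa [hg] at h1

/-- The generic matrix at `g`. -/
private def genMat {G : Type*} (R : Type*) [CommRing R] (g : G) :
    Matrix (Fin 2) (Fin 2) (MvPolynomial (G × Fin 2 × Fin 2) R) :=
  fun i j => X (g, i, j)

/-- **Lifting a finite group**: traces and determinants in `R` realised over all the reductions
are realised over `ℂ`. -/
theorem exists_rep_complex_of_reductions {G : Type*} [Group G] [Finite G] (R : Subring ℂ)
    (t d : G → R) {ι : Type*} (k : ι → Type*) [∀ i, Field (k i)] (φ : ∀ i, R →+* k i)
    (hinj : ∀ r : R, (∀ i, φ i r = 0) → r = 0)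
    (hrep : ∀ i, ∃ r : G →* GL (Fin 2) (k i),
      ∀ g, (r g).val.trace = φ i (t g) ∧ (r g).val.det = φ i (d g)) :
    ∃ ρ : G →* GL (Fin 2) ℂ, ∀ g, (ρ g).val.trace = (t g : ℂ) ∧ (ρ g).val.det = (d g : ℂ) := by
  classical
  let M := genMat (G := G) R
  let S : Set (MvPolynomial (G × Fin 2 × Fin 2) R) :=
    {P | ∃ g h i j, P = (M g * M h - M (g * h)) i j} ∪ {P | ∃ i j, P = (M 1 - 1) i j} ∪
      {P | ∃ g, P = (M g).trace - C (t g) ∨ P = (M g).det - C (d g)}
  have hev : ∀ {A : Type} [CommRing A] (f : R →+* A) (x : G × Fin 2 × Fin 2 → A) (g : G),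
      (eval₂Hom f x).mapMatrix (M g) = Matrix.of fun i j => x (g, i, j) := fun f x g => by
    ext i j; simp [M, genMat]
  have hsol : ∀ i, ∃ x : G × Fin 2 × Fin 2 → k i, ∀ P ∈ S, eval₂ (φ i) x P = 0 := fun i => by
    obtain ⟨r, hr⟩ := hrep i
    refine ⟨fun s => (r s.1).val s.2.1 s.2.2, fun P hP => ?_⟩
    let e := eval₂Hom (φ i) fun s : G × Fin 2 × Fin 2 => (r s.1).val s.2.1 s.2.2
    have he : ∀ g, e.mapMatrix (M g) = (r g).val := fun g => by
      ext a b; simp [e, M, genMat]
    rcases hP with (⟨g, h, a, b, rfl⟩ | ⟨a, b, rfl⟩) | ⟨g, rfl | rfl⟩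
    · show e.mapMatrix _ a b = 0
      rw [map_sub, map_mul, he, he, he, map_mul, Units.val_mul, sub_self]; rfl
    · show e.mapMatrix _ a b = 0
      rw [map_sub, he, map_one, map_one, Units.val_one, sub_self]; rfl
    · show e _ = 0
      rw [map_sub, eval₂Hom_C, AddMonoidHom.map_trace, sub_eq_zero, ← (hr g).1, ← he g]
      rfl
    · show e _ = 0
      rw [map_sub, eval₂Hom_C, RingHom.map_det, he g, (hr g).2, sub_self]
  obtain ⟨x, hx⟩ := exists_complex_zero_of_reductions R S k φ hinj hsol
  let e := eval₂Hom R.subtype x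
  let ρ₀ : G →* Matrix (Fin 2) (Fin 2) ℂ :=
    { toFun := fun g => e.mapMatrix (M g)
      map_one' := by
        ext a b
        have := hx _ (Or.inl (Or.inr ⟨a, b, rfl⟩))
        change e.mapMatrix _ a b = 0 at this
        rwa [map_sub, map_one, Matrix.sub_apply, sub_eq_zero] at this
      map_mul' := fun g h => by
        ext a b
        have := hx _ (Or.inl (Or.inl ⟨g, h, a, b, rfl⟩))
        change e.mapMatrix _ a b = 0 at this
        rw [map_sub, map_mul, Matrix.sub_apply, sub_eq_zero] at this
        exact this.symm }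
  refine ⟨ρ₀.toHomUnits, fun g => ⟨?_, ?_⟩⟩
  · have := hx _ (Or.inr ⟨g, Or.inl rfl⟩)
    change e _ = 0 at this
    rw [map_sub, eval₂Hom_C, sub_eq_zero, AddMonoidHom.map_trace] at this
    exact this
  · have := hx _ (Or.inr ⟨g, Or.inr rfl⟩)
    change e _ = 0 at this
    rw [map_sub, eval₂Hom_C, sub_eq_zero, RingHom.map_det] at this
    exact this

end Fermat.Agent.Row48

end
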