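import Fermat.Agent.Row48.Assembly
import Fermat.Agent.Row48.BoundedImage
import Fermat.Agent.Row48.Density
import Fermat.Agent.Row48.GoodSet

/-!
# Reduction of S48 to its two arithmetic inputs

The coefficient field with the prime bound, and the residual representations.
-/

set_option autoImplicit false

noncomputable section

open CongruenceSubgroup

namespace Fermat.Agent.Row48

local notation "Γℚ" => (AlgebraicClosure ℚ ≃ₐ[ℚ] AlgebraicClosure ℚ)

/-- S48 from `Coefficients` and `ResidualReps`. -/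
theorem exists_galoisRep_of_coefficients {N : ℕ} [NeZero N] (ε : DirichletCharacter ℂ N)
    (a : ℕ → ℂ) (hC : Coefficients N ε a) (hR : ResidualReps N ε a) :
    ∃ ρ : Γℚ →* GL (Fin 2) ℂ, GaloisFactorsThroughFiniteLevel ρ ∧
      (Deformation.matrixRepresentation ρ).IsIrreducible ∧
      ∀ p : ℕ, p.Prime → ¬ p ∣ N →
        ∀ A : ValuationSubring (AlgebraicClosure ℚ), A.LiesOverPrime p →
          (∀ σ ∈ A.inertiaSubgroupIn ℚ, ρ σ = 1) ∧
          ∀ σ : Γℚ, A.IsFrobeniusAt σ p →
            (ρ σ).val.trace = a p ∧ (ρ σ).val.det = ε (p : ZMod N) :=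
  exists_galoisRep_of_inputs ε a hC hR
    (boundedImages (exceptionBound_of_coefficients hC) densityLower) densityLower

/-- The statement of S48 for one eigenform, from the two inputs at its coefficients. -/
theorem exists_galoisRep_qCoeff {N : ℕ} [NeZero N] (ε : DirichletCharacter ℂ N)
    (f : CuspForm (Gamma1 N) 1) (hC : Coefficients N ε (ModularFormClass.qCoeff f))
    (hR : ResidualReps N ε (ModularFormClass.qCoeff f)) :
    ∃ ρ : Γℚ →* GL (Fin 2) ℂ, GaloisFactorsThroughFiniteLevel ρ ∧
      (Deformation.matrixRepresentation ρ).IsIrreducible ∧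
      ∀ p : ℕ, p.Prime → ¬ p ∣ N →
        ∀ A : ValuationSubring (AlgebraicClosure ℚ), A.LiesOverPrime p →
          (∀ σ ∈ A.inertiaSubgroupIn ℚ, ρ σ = 1) ∧
          ∀ σ : Γℚ, A.IsFrobeniusAt σ p →
            ((ρ σ : GL (Fin 2) ℂ) : Matrix (Fin 2) (Fin 2) ℂ).trace = ModularFormClass.qCoeff f p ∧
            ((ρ σ : GL (Fin 2) ℂ) : Matrix (Fin 2) (Fin 2) ℂ).det = ε (p : ZMod N) :=
  exists_galoisRep_of_coefficients ε _ hC hR

end Fermat.Agent.Row48

end
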